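/-
GATE-P / S56 [P-GW] (helper54), leaf S56-GW-EQSUNITS, part 1: the `S`-unit sequence

  `0 → 𝓞_Lˣ → 𝓞_{L,T}ˣ → ℤ[T]`      (`T` a set of finite primes of the number field `L`)

in additive form: `unitsIncl T : Additive (𝓞 L)ˣ →+ Additive (T.unit L)` is injective,
`valVec T : Additive (T.unit L) →+ (T → ℤ)` (the vector of valuations) has kernel the range of
`unitsIncl T`, and for `T` finite the range of `valVec T` has FINITE INDEX in `T → ℤ`
(class number).  `T.unit L` is Mathlib's group of `T`-units (`Set.unit`).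

Part 2 (`Equivariant.lean`) adds the Galois action.
-/
import Fermat.Agent.GC.SUnitHQ.Rank

set_option autoImplicit false

open NumberField IsDedekindDomain Module

namespace Fermat.Agent.GP.GW.EqSUnits

open Fermat.Agent.S14.SI.SU Fermat.Agent.GC.SUnitHQ

open scoped WithZero

set_option linter.unusedSectionVars false

variable {L : Type*} [Field L] [NumberField L]

/-! ### the valuation vector -/

/-- the vector of valuations `x ↦ (w(x))_{w ∈ T}` on the `T`-units -/
noncomputable def valVec (T : Set (HeightOneSpectrum (𝓞 L))) :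
    Additive (T.unit L) →+ (T → ℤ) :=
  AddMonoidHom.pi fun w : T => valAdd T w.1

theorem valVec_apply (T : Set (HeightOneSpectrum (𝓞 L))) (x : Additive (T.unit L)) (w : T) :
    valVec T x w = valAdd T w.1 x := rfl

/-- `valVec` in terms of the adic valuation: `w.valuation x = exp (valVec x w)` -/
theorem exp_valVec (T : Set (HeightOneSpectrum (𝓞 L))) (x : Additive (T.unit L)) (w : T) :
    ((Multiplicative.ofAdd (valVec T x w) : Multiplicative ℤ) : ℤᵐ⁰) =
      w.1.valuation L (((Additive.toMul x : T.unit L) : Lˣ) : L) := by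
  rw [valVec_apply, valAdd_apply, ← coe_valU]
  rfl

theorem valVec_eq_zero_iff (T : Set (HeightOneSpectrum (𝓞 L))) (x : Additive (T.unit L)) :
    valVec T x = 0 ↔
      ((Additive.toMul x : T.unit L) : Lˣ) ∈ (∅ : Set (HeightOneSpectrum (𝓞 L))).unit L := by
  rw [mem_unit_iff]
  constructor
  · intro h w _
    by_cases hw : w ∈ T
    · have := congrFun h ⟨w, hw⟩
      rw [valVec_apply] at this
      exact (valAdd_eq_zero_iff T w x).mp this
    · exact valU_mem_unit (Additive.toMul x) hw
  · intro h
    funext w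
    rw [valVec_apply]
    exact (valAdd_eq_zero_iff T w.1 x).mpr (h w.1 (Set.notMem_empty _))

/-! ### the inclusion of the units -/

/-- the inclusion `𝓞_Lˣ → 𝓞_{L,T}ˣ` -/
noncomputable def unitsInclMul (T : Set (HeightOneSpectrum (𝓞 L))) : (𝓞 L)ˣ →* T.unit L :=
  (Subgroup.inclusion (unit_mono (K := L) (Set.empty_subset T))).comp
    (unitEmptyEquiv (K := L)).toMonoidHom

theorem coe_unitsInclMul (T : Set (HeightOneSpectrum (𝓞 L))) (u : (𝓞 L)ˣ) :
    ((unitsInclMul T u : T.unit L) : Lˣ) = Units.map (algebraMap (𝓞 L) L : 𝓞 L →* L) u := rfl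

theorem unitsInclMul_injective (T : Set (HeightOneSpectrum (𝓞 L))) :
    Function.Injective (unitsInclMul T) := by
  intro u v h
  have h1 := congrArg (fun y : T.unit L => (y : Lˣ)) h
  simp only [coe_unitsInclMul] at h1
  exact Units.map_injective (FaithfulSMul.algebraMap_injective (𝓞 L) L) h1

theorem mem_range_unitsInclMul_iff (T : Set (HeightOneSpectrum (𝓞 L))) (x : T.unit L) :
    x ∈ (unitsInclMul T).range ↔
      (x : Lˣ) ∈ (∅ : Set (HeightOneSpectrum (𝓞 L))).unit L := by
  rw [← range_unitsMap_eq_unit_empty]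
  constructor
  · rintro ⟨u, rfl⟩
    exact ⟨u, rfl⟩
  · rintro ⟨u, hu⟩
    exact ⟨u, Subtype.ext hu⟩

/-- the inclusion `𝓞_Lˣ → 𝓞_{L,T}ˣ`, additively -/
noncomputable def unitsIncl (T : Set (HeightOneSpectrum (𝓞 L))) :
    Additive (𝓞 L)ˣ →+ Additive (T.unit L) :=
  MonoidHom.toAdditive (unitsInclMul T)

theorem unitsIncl_apply (T : Set (HeightOneSpectrum (𝓞 L))) (u : Additive (𝓞 L)ˣ) :
    unitsIncl T u = Additive.ofMul (unitsInclMul T (Additive.toMul u)) := rfl

theorem unitsIncl_injective (T : Set (HeightOneSpectrum (𝓞 L))) :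
    Function.Injective (unitsIncl T) := fun _ _ h => unitsInclMul_injective T h

/-- **exactness** of `0 → 𝓞ˣ → 𝓞_Tˣ → ℤ[T]` at the middle term -/
theorem exact_unitsIncl_valVec (T : Set (HeightOneSpectrum (𝓞 L))) :
    Function.Exact (unitsIncl T) (valVec T) := by
  intro x
  rw [valVec_eq_zero_iff, ← mem_range_unitsInclMul_iff]
  constructor
  · rintro ⟨u, hu⟩
    exact ⟨Additive.ofMul u, congrArg Additive.ofMul hu⟩
  · rintro ⟨u, hu⟩
    exact ⟨Additive.toMul u, congrArg Additive.toMul hu⟩

theorem ker_valVec (T : Set (HeightOneSpectrum (𝓞 L))) :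
    (valVec T).ker = (unitsIncl T).range := by
  ext x
  rw [AddMonoidHom.mem_ker, AddMonoidHom.mem_range]
  exact exact_unitsIncl_valVec T x

theorem valVec_unitsIncl (T : Set (HeightOneSpectrum (𝓞 L))) (u : Additive (𝓞 L)ˣ) :
    valVec T (unitsIncl T u) = 0 :=
  (exact_unitsIncl_valVec T _).mpr ⟨u, rfl⟩

/-! ### finite index of the image (class number) -/

/-- for every `w ∈ T` a nonzero multiple of the basis vector `e_w` is a valuation vector -/
theorem exists_single_mem_range (T : Set (HeightOneSpectrum (𝓞 L))) [DecidableEq T] (w : T) :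
    ∃ n : ℤ, n ≠ 0 ∧ Pi.single w n ∈ (valVec T).range := by
  obtain ⟨x, hx1, hx2⟩ := exists_unit_away w.1
  have hxT : x ∈ T.unit L := by
    intro w' hw'
    exact hx1 w' (fun h => hw' (h ▸ w.2))
  set y : Additive (T.unit L) := Additive.ofMul ⟨x, hxT⟩ with hy
  refine ⟨valAdd T w.1 y, ?_, y, ?_⟩
  · rw [Ne, valAdd_eq_zero_iff]
    intro h
    exact hx2 ((valU_eq_one_iff w.1 x).mp h)
  · funext w'
    rw [valVec_apply]
    by_cases h : w' = w
    · subst h
      rw [Pi.single_eq_same]
    · rw [Pi.single_eq_of_ne h]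
      apply (valAdd_eq_zero_iff T w'.1 y).mpr
      apply (valU_eq_one_iff w'.1 x).mpr
      exact hx1 w'.1 (fun h' => h (Subtype.ext h'))

/-- there is `N ≠ 0` with `N • (T → ℤ) ⊆ range (valVec T)` -/
theorem exists_smul_mem_range (T : Set (HeightOneSpectrum (𝓞 L))) [Finite T] :
    ∃ N : ℤ, N ≠ 0 ∧ ∀ f : T → ℤ, N • f ∈ (valVec T).range := by
  classical
  have : Fintype T := Fintype.ofFinite T
  choose n hn0 hn using exists_single_mem_range T
  refine ⟨∏ w, n w, Finset.prod_ne_zero_iff.mpr (fun w _ => hn0 w), ?_⟩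
  intro f
  have hf : (∏ w, n w) • f = ∑ w, (f w * ∏ w' ∈ Finset.univ.erase w, n w') • Pi.single w (n w) := by
    funext w
    rw [Finset.sum_apply, Pi.smul_apply, Finset.sum_eq_single w]
    · rw [Pi.smul_apply, Pi.single_eq_same, smul_eq_mul, smul_eq_mul,
        ← Finset.mul_prod_erase Finset.univ n (Finset.mem_univ w)]
      ring
    · intro w' _ hw'
      rw [Pi.smul_apply, Pi.single_eq_of_ne hw'.symm, smul_zero]
    · intro h
      exact absurd (Finset.mem_univ w) h
  rw [hf]
  exact AddSubgroup.sum_mem _ (fun w _ => AddSubgroup.zsmul_mem _ (hn w) _)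

/-- **finite index**: for `T` finite the valuation vectors have finite index in `T → ℤ` -/
theorem finite_quotient_range_valVec (T : Set (HeightOneSpectrum (𝓞 L))) [Finite T] :
    Finite ((T → ℤ) ⧸ (valVec T).range) := by
  classical
  obtain ⟨N, hN0, hN⟩ := exists_smul_mem_range T
  set P : Submodule ℤ (T → ℤ) := AddSubgroup.toIntSubmodule (valVec T).range with hP
  have htors : Module.IsTorsion ℤ ((T → ℤ) ⧸ P) := by
    intro x
    obtain ⟨f, rfl⟩ := Submodule.Quotient.mk_surjective P x
    refine ⟨⟨N, mem_nonZeroDivisors_of_ne_zero hN0⟩, ?_⟩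
    change N • (Submodule.Quotient.mk f : (T → ℤ) ⧸ P) = 0
    rw [← Submodule.Quotient.mk_smul, Submodule.Quotient.mk_eq_zero]
    exact hN f
  have : Finite ((T → ℤ) ⧸ P) := Module.finite_of_fg_torsion _ htors
  exact this

instance finiteIndex_range_valVec (T : Set (HeightOneSpectrum (𝓞 L))) [Finite T] :
    (valVec T).range.FiniteIndex := by
  have := finite_quotient_range_valVec T
  exact AddSubgroup.finiteIndex_of_finite_quotient

/-! ### finite generation -/

/-- for `T` finite the `T`-units are a finitely generated abelian group (from the exact sequence;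
`T` is a `Set` here, compare `GC/SUnitHQ/Rank.instFiniteUnitFinset` for coerced finsets) -/
theorem finite_sUnits (T : Set (HeightOneSpectrum (𝓞 L))) [Finite T] :
    Module.Finite ℤ (Additive (T.unit L)) := by
  set f : Additive (T.unit L) →ₗ[ℤ] (T → ℤ) := (valVec T).toIntLinearMap with hf
  have e : Additive (𝓞 L)ˣ ≃ₗ[ℤ] LinearMap.ker f :=
    ((AddMonoidHom.ofInjective (unitsIncl_injective T)).trans
      (AddEquiv.addSubgroupCongr (ker_valVec T).symm)).toIntLinearEquiv
  have hker : Module.Finite ℤ (LinearMap.ker f) := Module.Finite.equiv e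
  have hq : Module.Finite ℤ (Additive (T.unit L) ⧸ LinearMap.ker f) :=
    Module.Finite.equiv (LinearMap.quotKerEquivRange f).symm
  exact Module.Finite.of_submodule_quotient (LinearMap.ker f)

end Fermat.Agent.GP.GW.EqSUnits
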