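/-
GATE-P / S56 [P-GW] (helper54), leaf S56-GW-EQSUNITS, part 2: the Galois action on the `S`-unit
sequence `0 → 𝓞_Lˣ → 𝓞_{L,T}ˣ → ℤ[T]`, `T = above S` the primes of `L` above a set `S` of primes of
`K`, `σ ∈ Gal(L/K)` (take `K = ℚ` for the full automorphism group of `L`).

* `σ` acts on `𝓞_Lˣ` by `Units.map (intAut σ)`, on the `T`-units by `sAct S σ` (GC/SUnitHQ/Action),
  on `T` by `w ↦ σ(w)` (`permAbove S σ`, the inverse of the pull-back `pullAbove S σ`), and on
  `T → ℤ` by `(σ f)(w) = f (σ⁻¹ w)` (`permFun S σ`).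
* `unitsIncl` and `valVec` are equivariant: `unitsIncl_unitsAct`, `valVec_sAct`.
-/
import Fermat.Agent.GC.SUnitHQ.Action
import Fermat.Agent.GP.GW.EqSUnits.ValMap

set_option autoImplicit false

open NumberField IsDedekindDomain Module

namespace Fermat.Agent.GP.GW.EqSUnits

open Fermat.Agent.S14.SI.SU Fermat.Agent.GC.SUnitHQ

open scoped WithZero

set_option linter.unusedSectionVars false

variable {K L : Type*} [Field K] [NumberField K] [Field L] [NumberField L] [Algebra K L]

/-! ### the action on the primes above `S` -/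

/-- pull-back of primes above `S` along `σ`: `w ↦ σ⁻¹(w)` (a RIGHT action) -/
noncomputable def pullAbove (S : Set (HeightOneSpectrum (𝓞 K))) (σ : L ≃ₐ[K] L) :
    above (L := L) S → above (L := L) S :=
  fun w => ⟨comapAut (intAut σ) w.1, (comapAut_mem_above_iff σ S w.1).mpr w.2⟩

theorem coe_pullAbove (S : Set (HeightOneSpectrum (𝓞 K))) (σ : L ≃ₐ[K] L)
    (w : above (L := L) S) : (pullAbove S σ w : HeightOneSpectrum (𝓞 L)) =
      comapAut (intAut σ) w.1 := rfl

theorem mem_pullAbove (S : Set (HeightOneSpectrum (𝓞 K))) (σ : L ≃ₐ[K] L)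
    (w : above (L := L) S) (r : 𝓞 L) :
    r ∈ (pullAbove S σ w).1.asIdeal ↔ intAut σ r ∈ w.1.asIdeal := Iff.rfl

theorem pullAbove_one (S : Set (HeightOneSpectrum (𝓞 K))) (w : above (L := L) S) :
    pullAbove S (1 : L ≃ₐ[K] L) w = w := by
  apply Subtype.ext
  ext r
  rw [mem_pullAbove]
  rfl

theorem pullAbove_mul (S : Set (HeightOneSpectrum (𝓞 K))) (σ τ : L ≃ₐ[K] L)
    (w : above (L := L) S) :
    pullAbove S (σ * τ) w = pullAbove S τ (pullAbove S σ w) := by
  apply Subtype.ext
  ext r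
  rw [mem_pullAbove, mem_pullAbove, mem_pullAbove]
  rfl

/-- the LEFT action of `Gal(L/K)` on the primes above `S`: `w ↦ σ(w)` -/
noncomputable def permAbove (S : Set (HeightOneSpectrum (𝓞 K))) (σ : L ≃ₐ[K] L) :
    Equiv.Perm (above (L := L) S) where
  toFun := pullAbove S σ⁻¹
  invFun := pullAbove S σ
  left_inv w := by rw [← pullAbove_mul, inv_mul_cancel, pullAbove_one]
  right_inv w := by rw [← pullAbove_mul, mul_inv_cancel, pullAbove_one]

theorem permAbove_apply (S : Set (HeightOneSpectrum (𝓞 K))) (σ : L ≃ₐ[K] L)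
    (w : above (L := L) S) : permAbove S σ w = pullAbove S σ⁻¹ w := rfl

theorem permAbove_symm_apply (S : Set (HeightOneSpectrum (𝓞 K))) (σ : L ≃ₐ[K] L)
    (w : above (L := L) S) : (permAbove S σ).symm w = pullAbove S σ w := rfl

/-- `σ(w) ∋ σ r ↔ w ∋ r` -/
theorem map_mem_permAbove_iff (S : Set (HeightOneSpectrum (𝓞 K))) (σ : L ≃ₐ[K] L)
    (w : above (L := L) S) (r : 𝓞 L) :
    intAut σ r ∈ (permAbove S σ w).1.asIdeal ↔ r ∈ w.1.asIdeal := by
  rw [permAbove_apply, mem_pullAbove]
  have : intAut σ⁻¹ (intAut σ r) = r := by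
    apply RingOfIntegers.ext
    rw [coe_intAut, coe_intAut]
    exact σ.symm_apply_apply _
  rw [this]

/-- `permAbove` as a group homomorphism `Gal(L/K) → Perm (above S)` -/
noncomputable def permAboveHom (S : Set (HeightOneSpectrum (𝓞 K))) :
    (L ≃ₐ[K] L) →* Equiv.Perm (above (L := L) S) where
  toFun := permAbove S
  map_one' := by
    ext w
    rw [permAbove_apply, inv_one, pullAbove_one]
    rfl
  map_mul' σ τ := by
    ext w
    rw [permAbove_apply, mul_inv_rev, pullAbove_mul]
    rfl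

/-- the action of `Gal(L/K)` on the primes above `S` as a `MulAction` (NOT an instance) -/
@[reducible] noncomputable def aboveMulAction (S : Set (HeightOneSpectrum (𝓞 K))) :
    MulAction (L ≃ₐ[K] L) (above (L := L) S) :=
  MulAction.compHom _ (permAboveHom (L := L) S)

/-! ### the permutation action on `T → ℤ` -/

/-- the action of `σ` on functions on the primes above `S`: `(σ f)(w) = f (σ⁻¹ w)` -/
noncomputable def permFun (S : Set (HeightOneSpectrum (𝓞 K))) (σ : L ≃ₐ[K] L) :
    (above (L := L) S → ℤ) →+ (above (L := L) S → ℤ) where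
  toFun f := fun w => f (pullAbove S σ w)
  map_zero' := rfl
  map_add' _ _ := rfl

theorem permFun_apply (S : Set (HeightOneSpectrum (𝓞 K))) (σ : L ≃ₐ[K] L)
    (f : above (L := L) S → ℤ) (w : above (L := L) S) :
    permFun S σ f w = f (pullAbove S σ w) := rfl

theorem permFun_apply' (S : Set (HeightOneSpectrum (𝓞 K))) (σ : L ≃ₐ[K] L)
    (f : above (L := L) S → ℤ) (w : above (L := L) S) :
    permFun S σ f w = f ((permAbove S σ).symm w) := rfl

theorem permFun_one (S : Set (HeightOneSpectrum (𝓞 K))) :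
    permFun (L := L) S (1 : L ≃ₐ[K] L) = AddMonoidHom.id _ := by
  ext f w
  rw [permFun_apply, pullAbove_one]
  rfl

theorem permFun_mul (S : Set (HeightOneSpectrum (𝓞 K))) (σ τ : L ≃ₐ[K] L) :
    permFun S (σ * τ) = (permFun S σ).comp (permFun S τ) := by
  ext f w
  rw [permFun_apply, pullAbove_mul]
  rfl

theorem permFun_single (S : Set (HeightOneSpectrum (𝓞 K))) [DecidableEq (above (L := L) S)]
    (σ : L ≃ₐ[K] L) (w : above (L := L) S) (n : ℤ) :
    permFun S σ (Pi.single w n) = Pi.single (permAbove S σ w) n := by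
  funext w'
  rw [permFun_apply']
  by_cases h : w' = permAbove S σ w
  · subst h
    rw [Equiv.symm_apply_apply, Pi.single_eq_same, Pi.single_eq_same]
  · rw [Pi.single_eq_of_ne h, Pi.single_eq_of_ne]
    intro h'
    exact h ((Equiv.symm_apply_eq _).mp h')

/-! ### the action on the units of `𝓞 L` -/

/-- the action of `σ` on `𝓞_Lˣ` -/
noncomputable def unitsAct (σ : L ≃ₐ[K] L) : (𝓞 L)ˣ →* (𝓞 L)ˣ :=
  Units.map ((intAut σ : 𝓞 L ≃+* 𝓞 L) : 𝓞 L →* 𝓞 L)

theorem coe_unitsAct (σ : L ≃ₐ[K] L) (u : (𝓞 L)ˣ) :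
    (((unitsAct σ u : (𝓞 L)ˣ) : 𝓞 L) : L) = σ ((u : 𝓞 L) : L) := rfl

theorem unitsAct_one : unitsAct (1 : L ≃ₐ[K] L) = MonoidHom.id _ := by
  ext u
  rfl

theorem unitsAct_mul (σ τ : L ≃ₐ[K] L) : unitsAct (σ * τ) = (unitsAct σ).comp (unitsAct τ) := by
  ext u
  rfl

/-! ### equivariance -/

/-- the inclusion of the units is Galois equivariant -/
theorem unitsInclMul_unitsAct (S : Set (HeightOneSpectrum (𝓞 K))) (σ : L ≃ₐ[K] L)
    (u : (𝓞 L)ˣ) :
    unitsInclMul (above (L := L) S) (unitsAct σ u) =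
      sAct S σ (unitsInclMul (above (L := L) S) u) := by
  apply Subtype.ext
  apply Units.ext
  rfl

/-- the valuation vector is Galois equivariant (multiplicative form):
`w(σ x) = (σ⁻¹ w)(x)` -/
theorem valVec_sAct (S : Set (HeightOneSpectrum (𝓞 K))) (σ : L ≃ₐ[K] L)
    (x : (above (L := L) S).unit L) :
    valVec (above (L := L) S) (Additive.ofMul (sAct S σ x)) =
      permFun S σ (valVec (above (L := L) S) (Additive.ofMul x)) := by
  funext w
  rw [permFun_apply]
  have h1 := exp_valVec (above (L := L) S) (Additive.ofMul (sAct S σ x)) w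
  have h2 := exp_valVec (above (L := L) S) (Additive.ofMul x) (pullAbove S σ w)
  rw [toMul_ofMul] at h1 h2
  rw [coe_sAct, valuation_galois, ← coe_pullAbove, ← h2] at h1
  have h3 := WithZero.coe_injective h1
  exact Multiplicative.ofAdd.injective h3

/-- the additive action of `σ` on the `S`-units of `L` -/
noncomputable def sActAdd (S : Set (HeightOneSpectrum (𝓞 K))) (σ : L ≃ₐ[K] L) :
    Additive ((above (L := L) S).unit L) →+ Additive ((above (L := L) S).unit L) :=
  MonoidHom.toAdditive (sAct S σ)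

/-- the additive action of `σ` on the units of `𝓞 L` -/
noncomputable def unitsActAdd (σ : L ≃ₐ[K] L) : Additive (𝓞 L)ˣ →+ Additive (𝓞 L)ˣ :=
  MonoidHom.toAdditive (unitsAct σ)

theorem sActAdd_apply (S : Set (HeightOneSpectrum (𝓞 K))) (σ : L ≃ₐ[K] L)
    (x : Additive ((above (L := L) S).unit L)) :
    sActAdd S σ x = Additive.ofMul (sAct S σ (Additive.toMul x)) := rfl

theorem unitsActAdd_apply (σ : L ≃ₐ[K] L) (u : Additive (𝓞 L)ˣ) :
    unitsActAdd (K := K) σ u = Additive.ofMul (unitsAct σ (Additive.toMul u)) := rfl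

theorem sActAdd_one (S : Set (HeightOneSpectrum (𝓞 K))) :
    sActAdd (L := L) S (1 : L ≃ₐ[K] L) = AddMonoidHom.id _ := by
  refine AddMonoidHom.ext fun x => ?_
  rw [sActAdd_apply, sAct_one]
  rfl

theorem sActAdd_mul (S : Set (HeightOneSpectrum (𝓞 K))) (σ τ : L ≃ₐ[K] L) :
    sActAdd S (σ * τ) = (sActAdd S σ).comp (sActAdd S τ) := by
  refine AddMonoidHom.ext fun x => ?_
  rw [sActAdd_apply, sAct_mul]
  rfl

theorem unitsActAdd_one : unitsActAdd (1 : L ≃ₐ[K] L) = AddMonoidHom.id _ := by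
  refine AddMonoidHom.ext fun u => ?_
  rw [unitsActAdd_apply, unitsAct_one]
  rfl

theorem unitsActAdd_mul (σ τ : L ≃ₐ[K] L) :
    unitsActAdd (σ * τ) = (unitsActAdd σ).comp (unitsActAdd τ) := by
  refine AddMonoidHom.ext fun u => ?_
  rw [unitsActAdd_apply, unitsAct_mul]
  rfl

/-- **equivariance of the inclusion** (additive form) -/
theorem unitsIncl_comp_unitsActAdd (S : Set (HeightOneSpectrum (𝓞 K))) (σ : L ≃ₐ[K] L) :
    (unitsIncl (above (L := L) S)).comp (unitsActAdd σ) =
      (sActAdd S σ).comp (unitsIncl (above (L := L) S)) := by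
  refine AddMonoidHom.ext fun u => ?_
  exact congrArg Additive.ofMul (unitsInclMul_unitsAct S σ (Additive.toMul u))

/-- **equivariance of the valuation vector** (additive form) -/
theorem valVec_comp_sActAdd (S : Set (HeightOneSpectrum (𝓞 K))) (σ : L ≃ₐ[K] L) :
    (valVec (above (L := L) S)).comp (sActAdd S σ) =
      (permFun S σ).comp (valVec (above (L := L) S)) := by
  refine AddMonoidHom.ext fun x => ?_
  exact valVec_sAct S σ (Additive.toMul x)

/-- the range of the valuation vector is stable under the permutation action -/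
theorem permFun_mem_range (S : Set (HeightOneSpectrum (𝓞 K))) (σ : L ≃ₐ[K] L)
    (f : above (L := L) S → ℤ) (hf : f ∈ (valVec (above (L := L) S)).range) :
    permFun S σ f ∈ (valVec (above (L := L) S)).range := by
  obtain ⟨x, rfl⟩ := hf
  exact ⟨sActAdd S σ x, DFunLike.congr_fun (valVec_comp_sActAdd S σ) x⟩

end Fermat.Agent.GP.GW.EqSUnits
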