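/-
GATE-P / S56 [P-GW] (helper54), leaf S56-GW-UNITQ-RHS, part 1 (Mathlib only): characteristic
polynomials of SUBSTITUTION OPERATORS `g ↦ g ∘ f` on `α → k` (`LinearMap.funLeft k k f`), `α` finite.

* `charpoly_funLeft_congr`  : an equivariant bijection `e : α ≃ β` (`e ∘ f = g ∘ e`) gives equal
                              characteristic polynomials;
* `charpoly_funLeft_symm`   : a permutation and its inverse have the same characteristic polynomial;
* `charpoly_funLeft_sum`    : `Sum.map f₁ f₂` gives the product;
* `charpoly_funLeft_split`  : an `f`-invariant predicate splits the characteristic polynomial;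
* `charpoly_funLeft_fibres` : an `f`-invariant colouring `c : α → ι` with values in a finset `s` gives
                              `∏ i ∈ s, charpoly (f on the fibre c⁻¹ i)`.
-/
import Mathlib

set_option autoImplicit false

open Polynomial

namespace Fermat.Agent.GP.GW.EqSUnits

set_option linter.unusedSectionVars false

section PermCharpoly

variable (k : Type*) [CommRing k] [Nontrivial k]

/-- equivariant bijections preserve the characteristic polynomial of substitution operators -/
theorem charpoly_funLeft_congr {α β : Type*} [Finite α] [Finite β] (e : α ≃ β) (f : α → α)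
    (g : β → β) (h : ∀ a, e (f a) = g (e a)) :
    (LinearMap.funLeft k k f).charpoly = (LinearMap.funLeft k k g).charpoly := by
  let E : (β → k) ≃ₗ[k] (α → k) := LinearEquiv.funCongrLeft k k e
  have hconj : E.conj (LinearMap.funLeft k k g) = LinearMap.funLeft k k f := by
    refine LinearMap.ext fun φ => funext fun a => ?_
    rw [LinearEquiv.conj_apply_apply]
    change (E.symm φ) (g (e a)) = φ (f a)
    change φ (e.symm (g (e a))) = φ (f a)
    rw [← h, Equiv.symm_apply_apply]
  rw [← hconj, LinearEquiv.charpoly_conj]

/-- the matrix of a substitution operator -/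
theorem toMatrix'_funLeft_eq {α : Type*} [Fintype α] [DecidableEq α] (f : α → α) :
    LinearMap.toMatrix' (LinearMap.funLeft k k f) =
      Matrix.of fun i j => if f i = j then (1 : k) else 0 := by
  ext i j
  rw [LinearMap.toMatrix'_apply, LinearMap.funLeft_apply, Matrix.of_apply, Pi.single_apply]

theorem charpoly_funLeft_eq_matrix {α : Type*} [Fintype α] [DecidableEq α] (f : α → α) :
    (LinearMap.funLeft k k f).charpoly =
      (Matrix.of fun i j => if f i = j then (1 : k) else 0).charpoly := by
  rw [← LinearMap.charpoly_toMatrix (LinearMap.funLeft k k f) (Pi.basisFun k α),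
    LinearMap.toMatrix_eq_toMatrix', toMatrix'_funLeft_eq]

/-- a permutation and its inverse have the same characteristic polynomial -/
theorem charpoly_funLeft_symm {α : Type*} [Finite α] (π : Equiv.Perm α) :
    (LinearMap.funLeft k k π).charpoly = (LinearMap.funLeft k k π.symm).charpoly := by
  classical
  have : Fintype α := Fintype.ofFinite α
  rw [charpoly_funLeft_eq_matrix, charpoly_funLeft_eq_matrix, ← Matrix.charpoly_transpose]
  congr 1
  ext i j
  rw [Matrix.transpose_apply, Matrix.of_apply, Matrix.of_apply]
  by_cases h : π j = i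
  · rw [if_pos h, if_pos (by rw [← h, Equiv.symm_apply_apply])]
  · rw [if_neg h, if_neg (fun h' => h (by rw [← h', Equiv.apply_symm_apply]))]

/-- substitution along `Sum.map f₁ f₂` -/
theorem charpoly_funLeft_sum {α β : Type*} [Finite α] [Finite β] (f₁ : α → α) (f₂ : β → β) :
    (LinearMap.funLeft k k (Sum.map f₁ f₂)).charpoly =
      (LinearMap.funLeft k k f₁).charpoly * (LinearMap.funLeft k k f₂).charpoly := by
  let E : (α ⊕ β → k) ≃ₗ[k] (α → k) × (β → k) := LinearEquiv.sumArrowLequivProdArrow α β k k
  have hconj : E.conj (LinearMap.funLeft k k (Sum.map f₁ f₂)) =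
      (LinearMap.funLeft k k f₁).prodMap (LinearMap.funLeft k k f₂) := by
    refine LinearMap.ext fun φ => ?_
    rw [LinearEquiv.conj_apply_apply]
    apply Prod.ext
    · funext a
      change (E.symm φ) (Sum.map f₁ f₂ (Sum.inl a)) = φ.1 (f₁ a)
      rfl
    · funext b
      change (E.symm φ) (Sum.map f₁ f₂ (Sum.inr b)) = φ.2 (f₂ b)
      rfl
  rw [← LinearMap.charpoly_prodMap, ← hconj, LinearEquiv.charpoly_conj]

/-- an invariant predicate splits the characteristic polynomial -/
theorem charpoly_funLeft_split {α : Type*} [Finite α] (f : α → α) (pr : α → Prop)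
    [DecidablePred pr] (hpr : ∀ a, pr (f a) ↔ pr a) :
    (LinearMap.funLeft k k f).charpoly =
      (LinearMap.funLeft k k
          (fun a : {a // pr a} => (⟨f a.1, (hpr a.1).2 a.2⟩ : {a // pr a}))).charpoly *
        (LinearMap.funLeft k k
          (fun a : {a // ¬ pr a} =>
            (⟨f a.1, fun h => a.2 ((hpr a.1).1 h)⟩ : {a // ¬ pr a}))).charpoly := by
  rw [← charpoly_funLeft_sum]
  refine charpoly_funLeft_congr k (Equiv.sumCompl pr).symm f _ ?_
  intro a
  by_cases h : pr a
  · rw [Equiv.sumCompl_symm_apply_of_pos h,
      Equiv.sumCompl_symm_apply_of_pos ((hpr a).2 h)]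
    rfl
  · rw [Equiv.sumCompl_symm_apply_of_neg h,
      Equiv.sumCompl_symm_apply_of_neg (fun h' => h ((hpr a).1 h'))]
    rfl

/-- substitution on the empty type -/
theorem charpoly_funLeft_of_isEmpty {α : Type*} [IsEmpty α] (f : α → α) :
    (LinearMap.funLeft k k f).charpoly = 1 := by
  apply (LinearMap.charpoly_monic (LinearMap.funLeft k k f)).natDegree_eq_zero.mp
  rw [LinearMap.charpoly_natDegree, Module.finrank_zero_of_subsingleton]

/-- restriction of `f` to a fibre of an invariant colouring -/
def fibreMap {α ι : Type*} (f : α → α) (c : α → ι) (hc : ∀ a, c (f a) = c a) (i : ι) :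
    {a // c a = i} → {a // c a = i} :=
  fun a => ⟨f a.1, (hc a.1).trans a.2⟩

theorem fibreMap_coe {α ι : Type*} (f : α → α) (c : α → ι) (hc : ∀ a, c (f a) = c a) (i : ι)
    (a : {a // c a = i}) : (fibreMap f c hc i a : α) = f a.1 := rfl

/-- **fibrewise product**: an `f`-invariant colouring `c` with values in the finset `s` splits the
characteristic polynomial of the substitution operator into the product over the fibres -/
theorem charpoly_funLeft_fibres {ι : Type*} [DecidableEq ι] (s : Finset ι) :
    ∀ {α : Type*} [Finite α] (f : α → α) (c : α → ι) (hc : ∀ a, c (f a) = c a)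
      (_ : ∀ a, c a ∈ s),
      (LinearMap.funLeft k k f).charpoly =
        ∏ i ∈ s, (LinearMap.funLeft k k (fibreMap f c hc i)).charpoly := by
  classical
  induction s using Finset.induction_on with
  | empty =>
    intro α _ f c hc hs
    have : IsEmpty α := ⟨fun a => absurd (hs a) (Finset.notMem_empty _)⟩
    rw [Finset.prod_empty, charpoly_funLeft_of_isEmpty]
  | insert i s hi ih =>
    intro α _ f c hc hs
    rw [Finset.prod_insert hi,
      charpoly_funLeft_split k f (fun a => c a = i) (fun a => by rw [hc])]
    congr 1
    rw [ih (fun a : {a // ¬ c a = i} =>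
        (⟨f a.1, fun h => a.2 ((hc a.1).symm.trans h)⟩ : {a // ¬ c a = i}))
      (fun a => c a.1) (fun a => hc a.1)
      (fun a => (Finset.mem_insert.1 (hs a.1)).resolve_left a.2)]
    apply Finset.prod_congr rfl
    intro j hj
    have hji : j ≠ i := fun h => hi (h ▸ hj)
    refine charpoly_funLeft_congr k
      { toFun := fun b => (⟨b.1.1, b.2⟩ : {a // c a = j})
        invFun := fun a => ⟨⟨a.1, fun h => hji (a.2.symm.trans h)⟩, a.2⟩
        left_inv := fun b => rfl
        right_inv := fun a => rfl } _ _ ?_
    intro b
    rfl

end PermCharpoly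

end Fermat.Agent.GP.GW.EqSUnits
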