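/-
GATE-P / S56 [P-GW] (helper54), leaf S56-GW-UNITQ-RHS, part 2: the RIGHT-HAND SIDE of (UNITq) from
the number-field spelling (`UnitCharpoly.unit_charpoly`: substitution operators on functions on the
primes of `F` above `S` and on `InfinitePlace F`) to the DOUBLE-COSET spelling of helper59's PIN
(board 4423): `permPoly D n = charpoly (f ↦ f ∘ (n • ·))` on `Map(D\G_ℚ/G_F, k)`.

`F ⊆ ℚ̄` a number field, normal over `ℚ`, `H ⊇ G_F` normalising `G_F`, `n : H`, `σ = n|_F`:
* `charpoly_infPlace` (T-∞): `charpoly (f ↦ f ∘ (σ⁻¹ • ·) | k[InfinitePlace F])`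
      `= charpoly (f ↦ f ∘ (n • ·) | k[⟨c⟩\G_ℚ/G_F])`;
* `charpoly_primesAbove` (T-S): `charpoly (f ↦ f ∘ pullAbove (ratPlaces S) σ | k[primes above S])`
      `= ∏ q ∈ S, charpoly (f ↦ f ∘ (n • ·) | k[D_q\G_ℚ/G_F])`.
-/
import Fermat.Agent.GP.GW.E3.MackeyPlaces
import Fermat.Agent.GP.GW.Euler.UnitDict
import Fermat.Agent.GP.GW.EqSUnits.PermCharpoly
import Fermat.Agent.GP.GW.EqSUnits.Equivariant

set_option autoImplicit false
set_option linter.unusedSectionVars false

open scoped Padic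
open IsDedekindDomain NumberField Polynomial

noncomputable section

namespace Fermat.Agent.GP.GW.EqSUnits

open Fermat.Agent.GC.Places Fermat.Agent.GC.Places.PlaceCount Fermat.Agent.GC.SUnitHQ
  Fermat.Agent.GC.KumH Fermat.Agent.GP.GW.E3.Mackey Fermat.Agent.GP.GW.Euler.UnitDict

local notation "Qb" => AlgebraicClosure ℚ
local notation "GQ" => (AlgebraicClosure ℚ ≃ₐ[ℚ] AlgebraicClosure ℚ)

local instance factPrimes_h54 (q : Nat.Primes) : Fact (q : ℕ).Prime := ⟨q.2⟩

/-! ### a prime ideal contains at most one rational prime -/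

theorem natPrime_eq_of_mem {R : Type*} [CommRing R] (P : Ideal R) (hP : P ≠ ⊤) {q q' : ℕ}
    (hq : q.Prime) (hq' : q'.Prime) (h : (q : R) ∈ P) (h' : (q' : R) ∈ P) : q = q' := by
  by_contra hne
  have hcop : Nat.Coprime q q' := (Nat.coprime_primes hq hq').2 hne
  obtain ⟨a, b, hab⟩ := Nat.isCoprime_iff_coprime.2 hcop
  apply hP
  rw [Ideal.eq_top_iff_one]
  have h1 : ((a : R) * (q : R) + (b : R) * (q' : R)) = 1 := by
    have := congrArg (Int.cast : ℤ → R) hab
    push_cast at this
    exact this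
  rw [← h1]
  exact P.add_mem (P.mul_mem_left _ h) (P.mul_mem_left _ h')

variable (F : IntermediateField ℚ Qb) [NumberField F] [Normal ℚ F]
variable (k : Type*) [CommRing k] [Nontrivial k]

/-! ### (T-∞) infinite places -/

instance finite_dc_decInf : Finite (DC decInf F.fixingSubgroup) :=
  Finite.of_equiv _ (infPlaceEquiv F).symm

/-- **(T-∞)** -/
theorem charpoly_infPlace (H : Subgroup GQ) [NormalIn F.fixingSubgroup H] (n : H) :
    (LinearMap.funLeft k k
        (fun w : InfinitePlace F => (resF F (n : GQ))⁻¹ • w)).charpoly =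
      (LinearMap.funLeft k k (fun w : DC decInf F.fixingSubgroup => n • w)).charpoly := by
  have h1 := charpoly_funLeft_symm k (MulAction.toPerm (resF F (n : GQ)) :
    Equiv.Perm (InfinitePlace F))
  have h2 : (fun w : InfinitePlace F => (resF F (n : GQ))⁻¹ • w) =
      ⇑(MulAction.toPerm (resF F (n : GQ)) : Equiv.Perm (InfinitePlace F)).symm := by
    funext w
    rfl
  rw [h2, ← h1]
  symm
  refine charpoly_funLeft_congr k (infPlaceEquiv F) _ _ ?_
  intro w
  rw [infPlaceEquiv_smul, sub_smul_infPlace]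
  rfl

/-! ### (T-S) the primes above `S` -/

variable (S : Finset Nat.Primes)

theorem exists_prime_of_above (w : above (L := F) (ratPlaces S)) :
    ∃ q ∈ S, (((q : ℕ) : ℕ) : 𝓞 F) ∈ w.1.asIdeal :=
  (Set.ext_iff.1 (above_ratPlaces S F) w.1).1 w.2

/-- the rational prime below a prime of `F` above `S` -/
def primeBelow (w : above (L := F) (ratPlaces S)) : Nat.Primes :=
  Classical.choose (exists_prime_of_above F S w)

theorem primeBelow_spec (w : above (L := F) (ratPlaces S)) :
    primeBelow F S w ∈ S ∧ (((primeBelow F S w : ℕ) : ℕ) : 𝓞 F) ∈ w.1.asIdeal :=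
  Classical.choose_spec (exists_prime_of_above F S w)

theorem primeBelow_eq_iff (w : above (L := F) (ratPlaces S)) (q : Nat.Primes) :
    primeBelow F S w = q ↔ (((q : ℕ) : ℕ) : 𝓞 F) ∈ w.1.asIdeal := by
  constructor
  · rintro rfl
    exact (primeBelow_spec F S w).2
  · intro h
    apply Subtype.ext
    exact natPrime_eq_of_mem w.1.asIdeal w.1.isPrime.ne_top (primeBelow F S w).2 q.2
      (primeBelow_spec F S w).2 h

theorem primeBelow_pullAbove (σ : F ≃ₐ[ℚ] F) (w : above (L := F) (ratPlaces S)) :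
    primeBelow F S (pullAbove (ratPlaces S) σ w) = primeBelow F S w := by
  rw [primeBelow_eq_iff, mem_pullAbove, map_natCast]
  exact (primeBelow_spec F S w).2

/-- the fibre of `primeBelow` over `q ∈ S` is the set of primes of `F` above `q` -/
def fibreEquiv (q : Nat.Primes) (hq : q ∈ S) :
    {w : above (L := F) (ratPlaces S) // primeBelow F S w = q} ≃ PrimesOverQ (q : ℕ) F where
  toFun w := ⟨w.1.1, (primeBelow_eq_iff F S w.1 q).1 w.2⟩
  invFun v := ⟨⟨v.1, by
    rw [above_ratPlaces]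
    exact ⟨q, hq, v.2⟩⟩, (primeBelow_eq_iff F S _ q).2 v.2⟩
  left_inv w := rfl
  right_inv v := rfl

theorem finite_sPlaces : (sPlaces S F).Finite := by
  have h : sPlaces S F = ⋃ q ∈ S, {v : HeightOneSpectrum (𝓞 F) |
      v.asIdeal ∣ Ideal.span {(((q : ℕ) : ℕ) : 𝓞 F)}} := by
    ext v
    simp only [sPlaces, Set.mem_ofPred_eq, Set.mem_iUnion, Ideal.dvd_span_singleton, exists_prop]
  rw [h]
  refine Set.Finite.biUnion S.finite_toSet fun q _ => Ideal.finite_factors ?_
  rw [Ne, Ideal.zero_eq_bot, Ideal.span_singleton_eq_bot]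
  exact Nat.cast_ne_zero.2 q.2.ne_zero

instance finite_above_ratPlaces : Finite (above (L := F) (ratPlaces S)) := by
  rw [above_ratPlaces]
  exact (finite_sPlaces F S).to_subtype

instance finite_primesOverQ (q : Nat.Primes) : Finite (PrimesOverQ (q : ℕ) F) := by
  have h : {v : HeightOneSpectrum (𝓞 F) | (((q : ℕ) : ℕ) : 𝓞 F) ∈ v.asIdeal}.Finite := by
    have h2 : {v : HeightOneSpectrum (𝓞 F) | (((q : ℕ) : ℕ) : 𝓞 F) ∈ v.asIdeal} =
        {v : HeightOneSpectrum (𝓞 F) | v.asIdeal ∣ Ideal.span {(((q : ℕ) : ℕ) : 𝓞 F)}} := by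
      ext v
      simp only [Set.mem_ofPred_eq, Ideal.dvd_span_singleton]
    rw [h2]
    refine Ideal.finite_factors ?_
    rw [Ne, Ideal.zero_eq_bot, Ideal.span_singleton_eq_bot]
    exact Nat.cast_ne_zero.2 q.2.ne_zero
  exact h.to_subtype

instance finite_dc_decQ (q : Nat.Primes) : Finite (DC (decQ (q : ℕ)) F.fixingSubgroup) :=
  Finite.of_equiv _ (primesEquiv F (q : ℕ)).symm

/-- **(T-S)** -/
theorem charpoly_primesAbove (H : Subgroup GQ) [NormalIn F.fixingSubgroup H] (n : H) :
    (LinearMap.funLeft k k (pullAbove (L := F) (ratPlaces S) (resF F (n : GQ)))).charpoly =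
      ∏ q ∈ S, (LinearMap.funLeft k k
        (fun w : DC (decQ (q : ℕ)) F.fixingSubgroup => n • w)).charpoly := by
  classical
  rw [charpoly_funLeft_fibres k S (pullAbove (L := F) (ratPlaces S) (resF F (n : GQ)))
    (primeBelow F S) (primeBelow_pullAbove F S _) (fun w => (primeBelow_spec F S w).1)]
  refine Finset.prod_congr rfl fun q hq => ?_
  -- the fibre over `q` is `PrimesOverQ q F`, where `pullAbove σ` is `σ⁻¹ • ·`
  have h1 : (LinearMap.funLeft k k (fibreMap (pullAbove (L := F) (ratPlaces S)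
      (resF F (n : GQ))) (primeBelow F S) (primeBelow_pullAbove F S _) q)).charpoly =
      (LinearMap.funLeft k k
        (fun v : PrimesOverQ (q : ℕ) F => (resF F (n : GQ))⁻¹ • v)).charpoly := by
    refine charpoly_funLeft_congr k (fibreEquiv F S q hq) _ _ ?_
    intro w
    apply Subtype.ext
    ext x
    change intAut (resF F (n : GQ)) x ∈ w.1.1.asIdeal ↔
      intAut ((resF F (n : GQ))⁻¹)⁻¹ x ∈ w.1.1.asIdeal
    rw [inv_inv]
  rw [h1]
  -- `σ⁻¹` versus `σ`, then the double-coset dictionary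
  have h2 := charpoly_funLeft_symm k (MulAction.toPerm (resF F (n : GQ)) :
    Equiv.Perm (PrimesOverQ (q : ℕ) F))
  have h3 : (fun v : PrimesOverQ (q : ℕ) F => (resF F (n : GQ))⁻¹ • v) =
      ⇑(MulAction.toPerm (resF F (n : GQ)) : Equiv.Perm (PrimesOverQ (q : ℕ) F)).symm := by
    funext v
    rfl
  rw [h3, ← h2]
  symm
  refine charpoly_funLeft_congr k (primesEquiv F (q : ℕ)) _ _ ?_
  intro w
  rw [primesEquiv_smul, sub_smul_prime]
  rfl

end Fermat.Agent.GP.GW.EqSUnits
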