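/-
GATE-P / S56 [P-GW] (helper54), leaf S56-GW-EQSUNITS, part 3: the equivariant `S`-unit sequence
packaged as representations of `G = Gal(L/K)` over `ℤ` and as modules over the group ring `ℤ[G]`.

* `unitsRepr`, `sUnitsRepr S`, `permRepr S : Representation ℤ (L ≃ₐ[K] L) _` on `Additive (𝓞 L)ˣ`,
  `Additive ((above S).unit L)`, `above S → ℤ`;
* intertwining maps `unitsInclI S`, `valVecI S`;
* `ℤ[G]`-linear maps `unitsInclMA S`, `valVecMA S` between the `asModule`s: injective, exact,
  and (for `S` finite) with FINITE cokernel `finite_coker_valVecMA`.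
-/
import Fermat.Agent.GC.SUnitHQ.Count
import Fermat.Agent.GP.GW.EqSUnits.Equivariant

set_option autoImplicit false

open NumberField IsDedekindDomain Module

namespace Fermat.Agent.GP.GW.EqSUnits

open Fermat.Agent.S14.SI.SU Fermat.Agent.GC.SUnitHQ

set_option linter.unusedSectionVars false

variable {K L : Type*} [Field K] [NumberField K] [Field L] [NumberField L] [Algebra K L]

/-- finitely many primes of `L` lie above a finite set of primes of `K` -/
theorem finite_above (S : Set (HeightOneSpectrum (𝓞 K))) (hS : S.Finite) :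
    Finite (above (L := L) S) := by
  have h := coe_aboveF (L := L) hS.toFinset
  rw [Set.Finite.coe_toFinset] at h
  rw [← h]
  exact Finset.finite_toSet _

instance finite_above_finset (S : Finset (HeightOneSpectrum (𝓞 K))) :
    Finite (above (L := L) (S : Set (HeightOneSpectrum (𝓞 K)))) :=
  finite_above _ S.finite_toSet

/-! ### the three representations -/

variable (K L) in
/-- `Gal(L/K)` acting on `𝓞_Lˣ` (additively) -/
noncomputable def unitsRepr : Representation ℤ (L ≃ₐ[K] L) (Additive (𝓞 L)ˣ) where
  toFun σ := (unitsActAdd σ).toIntLinearMap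
  map_one' := by rw [unitsActAdd_one]; rfl
  map_mul' σ τ := by rw [unitsActAdd_mul]; rfl

/-- `Gal(L/K)` acting on the `S`-units of `L` (additively) -/
noncomputable def sUnitsRepr (S : Set (HeightOneSpectrum (𝓞 K))) :
    Representation ℤ (L ≃ₐ[K] L) (Additive ((above (L := L) S).unit L)) where
  toFun σ := (sActAdd S σ).toIntLinearMap
  map_one' := by rw [sActAdd_one]; rfl
  map_mul' σ τ := by rw [sActAdd_mul]; rfl

/-- `Gal(L/K)` acting on `ℤ`-valued functions on the primes of `L` above `S`:
`(σ f)(w) = f (σ⁻¹ w)` -/
noncomputable def permRepr (S : Set (HeightOneSpectrum (𝓞 K))) :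
    Representation ℤ (L ≃ₐ[K] L) (above (L := L) S → ℤ) where
  toFun σ := (permFun S σ).toIntLinearMap
  map_one' := by rw [permFun_one]; rfl
  map_mul' σ τ := by rw [permFun_mul]; rfl

theorem unitsRepr_apply (σ : L ≃ₐ[K] L) (u : Additive (𝓞 L)ˣ) :
    unitsRepr K L σ u = unitsActAdd σ u := rfl

theorem sUnitsRepr_apply (S : Set (HeightOneSpectrum (𝓞 K))) (σ : L ≃ₐ[K] L)
    (x : Additive ((above (L := L) S).unit L)) : sUnitsRepr S σ x = sActAdd S σ x := rfl

theorem permRepr_apply (S : Set (HeightOneSpectrum (𝓞 K))) (σ : L ≃ₐ[K] L)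
    (f : above (L := L) S → ℤ) : permRepr S σ f = permFun S σ f := rfl

/-! ### the intertwining maps -/

/-- the inclusion of the units as an intertwining map -/
noncomputable def unitsInclI (S : Set (HeightOneSpectrum (𝓞 K))) :
    (unitsRepr K L).IntertwiningMap (sUnitsRepr S) where
  toLinearMap := (unitsIncl (above (L := L) S)).toIntLinearMap
  isIntertwining' σ := by
    refine LinearMap.ext fun u => ?_
    exact DFunLike.congr_fun (unitsIncl_comp_unitsActAdd S σ) u

/-- the valuation vector as an intertwining map -/
noncomputable def valVecI (S : Set (HeightOneSpectrum (𝓞 K))) :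
    (sUnitsRepr (L := L) S).IntertwiningMap (permRepr S) where
  toLinearMap := (valVec (above (L := L) S)).toIntLinearMap
  isIntertwining' σ := by
    refine LinearMap.ext fun x => ?_
    exact DFunLike.congr_fun (valVec_comp_sActAdd S σ) x

theorem unitsInclI_apply (S : Set (HeightOneSpectrum (𝓞 K))) (u : Additive (𝓞 L)ˣ) :
    unitsInclI (K := K) S u = unitsIncl (above (L := L) S) u := rfl

theorem valVecI_apply (S : Set (HeightOneSpectrum (𝓞 K)))
    (x : Additive ((above (L := L) S).unit L)) :
    valVecI S x = valVec (above (L := L) S) x := rfl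

/-! ### the `ℤ[G]`-module form -/

/-- the inclusion of the units, `ℤ[Gal(L/K)]`-linear -/
noncomputable def unitsInclMA (S : Set (HeightOneSpectrum (𝓞 K))) :
    (unitsRepr K L).asModule →ₗ[MonoidAlgebra ℤ (L ≃ₐ[K] L)] (sUnitsRepr (L := L) S).asModule :=
  Representation.IntertwiningMap.equivLinearMapAsModule _ _ (unitsInclI S)

/-- the valuation vector, `ℤ[Gal(L/K)]`-linear -/
noncomputable def valVecMA (S : Set (HeightOneSpectrum (𝓞 K))) :
    (sUnitsRepr (L := L) S).asModule →ₗ[MonoidAlgebra ℤ (L ≃ₐ[K] L)]
      (permRepr (L := L) S).asModule :=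
  Representation.IntertwiningMap.equivLinearMapAsModule _ _ (valVecI S)

theorem unitsInclMA_apply (S : Set (HeightOneSpectrum (𝓞 K))) (u : (unitsRepr K L).asModule) :
    unitsInclMA S u = unitsIncl (above (L := L) S) u := rfl

theorem valVecMA_apply (S : Set (HeightOneSpectrum (𝓞 K)))
    (x : (sUnitsRepr (L := L) S).asModule) :
    valVecMA S x = valVec (above (L := L) S) x := rfl

theorem unitsInclMA_injective (S : Set (HeightOneSpectrum (𝓞 K))) :
    Function.Injective (unitsInclMA (K := K) (L := L) S) :=
  unitsIncl_injective (above (L := L) S)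

theorem exact_unitsInclMA_valVecMA (S : Set (HeightOneSpectrum (𝓞 K))) :
    Function.Exact (unitsInclMA (K := K) (L := L) S) (valVecMA S) :=
  exact_unitsIncl_valVec (above (L := L) S)

/-- **finite cokernel**: for `S` finite, `ℤ[above S] / valVec (S-units)` is finite -/
theorem finite_coker_valVecMA (S : Set (HeightOneSpectrum (𝓞 K)))
    [Finite (above (L := L) S)] :
    Finite ((permRepr (L := L) S).asModule ⧸ LinearMap.range (valVecMA (L := L) S)) :=
  finite_quotient_range_valVec (above (L := L) S)

/-- the underlying abelian group of the `S`-unit module is finitely generated -/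
theorem finite_sUnitsRepr (S : Set (HeightOneSpectrum (𝓞 K))) [Finite (above (L := L) S)] :
    Module.Finite ℤ (Additive ((above (L := L) S).unit L)) :=
  finite_sUnits (above (L := L) S)

end Fermat.Agent.GP.GW.EqSUnits
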