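/-
GATE-P / S56 [P-GW] (helper54), leaf S56-GW-EQSUNITS, part 4: the `S`-unit sequence fed into the
Herbrand-type additive invariant `q_φ(A) = φ(A/p) − φ(A[p])` of `GP/GW/HerbrandAdd` (helper9):

  `q(U_S(L)) = q(𝓞_Lˣ) + φ(𝔽_p[S_L])`      over `R = ℤ[Gal(L/K)]`,

for every additive function `φ` on finite `R`-modules killed by `p`.
-/
import Fermat.Agent.GP.GW.HerbrandAdd
import Fermat.Agent.GP.GW.EqSUnits.Packaged

set_option autoImplicit false

open NumberField IsDedekindDomain Module

namespace Fermat.Agent.GP.GW.EqSUnits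

open Fermat.Agent.S14.SI.SU Fermat.Agent.GC.SUnitHQ Fermat.Agent.GP.GW.HerbrandAdd

set_option linter.unusedSectionVars false

universe u v uR uZ

section Abstract

variable {R : Type uR} [Ring R] {p : ℕ}

/-- a finitely generated abelian group killed by `N ≠ 0` is finite -/
theorem finite_of_fg_of_killed {A : Type*} [AddCommGroup A] [Module.Finite ℤ A] {N : ℕ}
    (hN : N ≠ 0) (h : ∀ a : A, N • a = 0) : Finite A := by
  apply Module.finite_of_fg_torsion A
  intro a
  refine ⟨⟨(N : ℤ), mem_nonZeroDivisors_of_ne_zero (by exact_mod_cast hN)⟩, ?_⟩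
  change (N : ℤ) • a = 0
  rw [natCast_zsmul]
  exact h a

/-- an `R`-module whose underlying abelian group is finitely generated has finite `A[p]` and
`A/p` (`p ≠ 0`) -/
theorem hqFin_of_finite_int (hp : p ≠ 0) (A : Type*) [AddCommGroup A] [Module R A]
    [Module.Finite ℤ A] : HQFin R p A := by
  constructor
  · -- `A[p]`
    have hfin : Module.Finite ℤ (tors (R := R) p A) :=
      Module.Finite.of_injective
        ((tors (R := R) p A).subtype.toAddMonoidHom.toIntLinearMap)
        (Submodule.injective_subtype (tors (R := R) p A))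
    exact finite_of_fg_of_killed hp (tors_killed (R := R) p)
  · -- `A/p`
    have hfin : Module.Finite ℤ (quo (R := R) p A) :=
      Module.Finite.of_surjective
        ((pRange (R := R) p A).mkQ.toAddMonoidHom.toIntLinearMap)
        (Submodule.mkQ_surjective (pRange (R := R) p A))
    exact finite_of_fg_of_killed hp (quo_killed (R := R) p)

end Abstract

variable {K : Type v} {L : Type u} [Field K] [NumberField K] [Field L] [NumberField L]
  [Algebra K L]

/-- `ℤ[S_L] = (above S → ℤ)` has no `p`-torsion -/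
theorem permRepr_torsionFree {p : ℕ} (hp : p ≠ 0) (S : Set (HeightOneSpectrum (𝓞 K)))
    (f : (permRepr (L := L) S).asModule) (hf : p • f = 0) : f = 0 := by
  funext w
  have h := congrFun hf w
  have h2 : p • (f w : ℤ) = 0 := h
  rw [nsmul_eq_mul] at h2
  rcases mul_eq_zero.mp h2 with h0 | h0
  · exact absurd (by exact_mod_cast h0) hp
  · exact h0

/-- **`q(U_S(L)) = q(𝓞_Lˣ) + φ(𝔽_p[S_L])`** for every additive function `φ` over
`ℤ[Gal(L/K)]`. -/
theorem q_sUnits {p : ℕ} (hp : p ≠ 0) {Z : Type uZ} [AddCommGroup Z]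
    (S : Set (HeightOneSpectrum (𝓞 K))) [Finite (above (L := L) S)]
    (Φ : AddFun.{u} (MonoidAlgebra ℤ (L ≃ₐ[K] L)) p Z) :
    Φ.q (sUnitsRepr (L := L) S).asModule =
      Φ.q (unitsRepr K L).asModule +
        Φ.φ (quo (R := MonoidAlgebra ℤ (L ≃ₐ[K] L)) p (permRepr (L := L) S).asModule) := by
  have hU : HQFin (MonoidAlgebra ℤ (L ≃ₐ[K] L)) p (unitsRepr K L).asModule := by
    have : Module.Finite ℤ (unitsRepr K L).asModule :=
      inferInstanceAs (Module.Finite ℤ (Additive (𝓞 L)ˣ))
    exact hqFin_of_finite_int hp _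
  have hP : HQFin (MonoidAlgebra ℤ (L ≃ₐ[K] L)) p (permRepr (L := L) S).asModule := by
    have : Module.Finite ℤ (permRepr (L := L) S).asModule :=
      inferInstanceAs (Module.Finite ℤ (above (L := L) S → ℤ))
    exact hqFin_of_finite_int hp _
  set W := LinearMap.range (valVecMA (L := L) S) with hW
  have hfin : Finite ((permRepr (L := L) S).asModule ⧸ W) := finite_coker_valVecMA S
  have hWq : HQFin (MonoidAlgebra ℤ (L ≃ₐ[K] L)) p W :=
    HQFin.of_exact_right hP (HQFin.of_finite (R := MonoidAlgebra ℤ (L ≃ₐ[K] L)) (p := p)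
      (A := (permRepr (L := L) S).asModule ⧸ W)) (f := W.subtype) (g := W.mkQ)
      (Submodule.injective_subtype _) (Submodule.mkQ_surjective _)
      (LinearMap.exact_subtype_mkQ _)
  have h1 := Φ.q_add hU hWq (f := unitsInclMA (K := K) (L := L) S)
    (g := (valVecMA (L := L) S).rangeRestrict) (unitsInclMA_injective S)
    (LinearMap.surjective_rangeRestrict _) (by
      intro x
      rw [← exact_unitsInclMA_valVecMA S x]
      constructor
      · intro h
        have := congrArg Subtype.val h
        exact this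
      · intro h
        exact Subtype.ext h)
  have h2 := Φ.q_of_finite_quotient W hWq
  have h3 := Φ.q_torsionFree (A := (permRepr (L := L) S).asModule)
    (permRepr_torsionFree hp S)
  rw [h1, ← h2, h3]

end Fermat.Agent.GP.GW.EqSUnits
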