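/-
GATE-P / S56 [P-GW] (helper54), leaf S56-GW-E3-UNIT-DIRECT: the **equivariant unit count**

  `φ(U_S(L)/p) + φ(ℤ/p) = φ(U_S(L)[p]) + φ(𝔽_p[S_L]) + φ(𝔽_p[∞_L])`

for every additive function `φ` (`HerbrandAdd.AddFun`) on finite `p`-killed modules over
`R = ℤ[Gal(L/K)]`, `K ⊆ L` number fields, `S` a finite set of primes of `K`.  Inputs:
* helper41 `GP/GW/EqUnits/Main.exists_equivariant_rat_embedding` (equivariant Dirichlet),
* `GP/GW/EqSUnits/{ValMap,Equivariant,Packaged,ModP}` (the equivariant `S`-unit sequence),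
* helper9 `GP/GW/HerbrandRat.phi_unit_count` (abstract count).
-/
import Fermat.Agent.GP.GW.HerbrandRat
import Fermat.Agent.GP.GW.EqUnits.Main
import Fermat.Agent.GP.GW.EqSUnits.ModP

set_option autoImplicit false

open NumberField IsDedekindDomain Module

namespace Fermat.Agent.GP.GW.EqSUnits

open Fermat.Agent.S14.SI.SU Fermat.Agent.GC.SUnitHQ Fermat.Agent.GP.GW.HerbrandAdd
  Fermat.Agent.GP.GW.EqUnits

set_option linter.unusedSectionVars false

universe u v uR uZ

/-! ### generic lemmas -/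

section Generic

/-- an additive map between `ℤ[G]`-modules commuting with the group elements is `ℤ[G]`-linear -/
theorem map_smul_of_equivariant {G : Type*} [Group G] {M M' : Type*} [AddCommGroup M]
    [Module (MonoidAlgebra ℤ G) M] [AddCommGroup M'] [Module (MonoidAlgebra ℤ G) M']
    (f : M →+ M')
    (h : ∀ (σ : G) (m : M), f (MonoidAlgebra.of ℤ G σ • m) = MonoidAlgebra.of ℤ G σ • f m)
    (r : MonoidAlgebra ℤ G) (m : M) : f (r • m) = r • f m := by
  induction r using MonoidAlgebra.induction_on with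
  | of σ => exact h σ m
  | add a b ha hb => rw [add_smul, map_add, ha, hb, add_smul]
  | smul z a ha => rw [smul_assoc, map_zsmul, ha, smul_assoc]

/-- the group elements act on `ρ.asModule` through `ρ` -/
theorem of_smul_asModule {G : Type*} [Group G] {V : Type*} [AddCommGroup V]
    (ρ : Representation ℤ G V) (σ : G) (x : ρ.asModule) :
    MonoidAlgebra.of ℤ G σ • x = ρ σ x := by
  change ρ.asAlgebraHom (MonoidAlgebra.of ℤ G σ) x = ρ σ x
  rw [Representation.asAlgebraHom_of]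

/-- a common denominator for finitely many rationals -/
theorem exists_common_den {ι : Type*} [Finite ι] (q : ι → ℚ) :
    ∃ n : ℕ, 0 < n ∧ ∃ z : ι → ℤ, ∀ i, (n : ℚ) * q i = z i := by
  classical
  have : Fintype ι := Fintype.ofFinite ι
  refine ⟨∏ i, (q i).den, Finset.prod_pos fun i _ => (q i).den_pos,
    fun i => (q i).num * ∏ j ∈ Finset.univ.erase i, ((q j).den : ℤ), fun i => ?_⟩
  rw [← Finset.mul_prod_erase Finset.univ (fun j => (q j).den) (Finset.mem_univ i)]
  push_cast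
  rw [mul_comm ((q i).den : ℚ), mul_assoc, Rat.den_mul_eq_num, mul_comm]

/-- an injective additive map from a free `ℤ`-module of rank `n` into a rational vector space of
dimension `n` has image spanning rationally: every vector has a positive multiple in the image -/
theorem exists_nsmul_mem_range_of_injective {M V : Type*} [AddCommGroup M] [Module.Free ℤ M]
    [Module.Finite ℤ M] [AddCommGroup V] [Module ℚ V] [FiniteDimensional ℚ V]
    (F : M →+ V) (hF : Function.Injective F) (hrk : finrank ℤ M = finrank ℚ V) (v : V) :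
    ∃ n : ℕ, 0 < n ∧ n • v ∈ F.range := by
  classical
  set ι := Module.Free.ChooseBasisIndex ℤ M
  let b : Basis ι ℤ M := Module.Free.chooseBasis ℤ M
  let Fl : M →ₗ[ℤ] V := F.toIntLinearMap
  have hv : LinearIndependent ℤ (Fl ∘ b) :=
    b.linearIndependent.map' Fl (LinearMap.ker_eq_bot.2 hF)
  have hvQ : LinearIndependent ℚ (Fl ∘ b) := (LinearIndependent.iff_fractionRing ℤ ℚ).1 hv
  have hcard : Fintype.card ι = finrank ℚ V := by
    rw [← hrk, Module.finrank_eq_card_chooseBasisIndex]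
  let bV : Basis ι ℚ V := basisOfLinearIndependentOfCardEqFinrank' _ hvQ hcard
  have hbV : ∀ i, bV i = F (b i) := fun i => by
    simp [bV, Fl]
  obtain ⟨n, hn, z, hz⟩ := exists_common_den (fun i => bV.repr v i)
  refine ⟨n, hn, ∑ i, z i • b i, ?_⟩
  rw [map_sum]
  conv_rhs => rw [← bV.sum_repr v, Finset.smul_sum]
  refine Finset.sum_congr rfl fun i _ => ?_
  rw [map_zsmul, ← hbV, ← Int.cast_smul_eq_zsmul ℚ, ← hz i, ← Nat.cast_smul_eq_nsmul ℚ,
    smul_smul]

end Generic

/-! ### the `ℤ`-torsion submodule and `p`-torsion transfer -/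

section TorsionSub

variable {R : Type uR} [Ring R]

/-- the `ℤ`-torsion submodule of an `R`-module -/
def torsionSub (U : Type*) [AddCommGroup U] [Module R U] : Submodule R U where
  carrier := {x | ∃ n : ℕ, 0 < n ∧ n • x = 0}
  zero_mem' := ⟨1, one_pos, smul_zero _⟩
  add_mem' := by
    rintro x y ⟨n, hn, hx⟩ ⟨m, hm, hy⟩
    refine ⟨n * m, Nat.mul_pos hn hm, ?_⟩
    have h1 : (n * m) • x = 0 := by rw [mul_comm, mul_smul, hx, smul_zero]
    have h2 : (n * m) • y = 0 := by rw [mul_smul, hy, smul_zero]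
    rw [smul_add, h1, h2, add_zero]
  smul_mem' := by
    rintro r x ⟨n, hn, hx⟩
    exact ⟨n, hn, by rw [smul_comm, hx, smul_zero]⟩

theorem mem_torsionSub {U : Type*} [AddCommGroup U] [Module R U] {x : U} :
    x ∈ torsionSub (R := R) U ↔ ∃ n : ℕ, 0 < n ∧ n • x = 0 := Iff.rfl

variable {p : ℕ} {Z : Type uZ} [AddCommGroup Z]

/-- `A[p] ≅ B[p]` along an injection whose image contains `B[p]` -/
theorem phi_tors_eq_of_injective (Φ : AddFun.{u} R p Z) {A B : Type u} [AddCommGroup A]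
    [Module R A] [AddCommGroup B] [Module R B] (f : A →ₗ[R] B) (hf : Function.Injective f)
    (hsurj : ∀ b : B, p • b = 0 → ∃ a, f a = b) [Finite (tors (R := R) p A)] :
    Φ.φ (tors (R := R) p A) = Φ.φ (tors (R := R) p B) := by
  have hbij : Function.Bijective (torsMap (R := R) p f) := by
    refine ⟨torsMap_injective p hf, ?_⟩
    intro b
    obtain ⟨a, ha⟩ := hsurj b ((mem_tors p).1 b.2)
    have hpa : a ∈ tors (R := R) p A := by
      rw [mem_tors]
      apply hf
      rw [map_nsmul, ha, map_zero]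
      exact (mem_tors p).1 b.2
    exact ⟨⟨a, hpa⟩, Subtype.ext ha⟩
  exact Φ.iso (tors_killed p) (LinearEquiv.ofBijective _ hbij)

end TorsionSub

/-! ### the infinite places -/

section Places

variable {K : Type v} {L : Type u} [Field K] [NumberField K] [Field L] [NumberField L]
  [Algebra K L]

variable (K L) in
/-- `Gal(L/K)` acting on `A`-valued functions on the infinite places of `L`:
`(σ f)(w) = f (σ⁻¹ • w)` (Mathlib's action on `InfinitePlace L`) -/
noncomputable def infRepr (A : Type*) [AddCommGroup A] :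
    Representation ℤ (L ≃ₐ[K] L) (InfinitePlace L → A) where
  toFun σ :=
    { toFun := fun f w => f (σ⁻¹ • w)
      map_add' := fun _ _ => rfl
      map_smul' := fun _ _ => rfl }
  map_one' := by
    refine LinearMap.ext fun f => funext fun w => ?_
    change f ((1 : L ≃ₐ[K] L)⁻¹ • w) = f w
    rw [inv_one, one_smul]
  map_mul' σ τ := by
    refine LinearMap.ext fun f => funext fun w => ?_
    change f ((σ * τ)⁻¹ • w) = f (τ⁻¹ • σ⁻¹ • w)
    rw [mul_inv_rev, mul_smul]

theorem infRepr_apply (A : Type*) [AddCommGroup A] (σ : L ≃ₐ[K] L) (f : InfinitePlace L → A)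
    (w : InfinitePlace L) : infRepr K L A σ f w = f (σ⁻¹ • w) := rfl

/-- helper41's `unitMap` is our `unitsAct` -/
theorem unitMap_eq_unitsAct (σ : L ≃ₐ[K] L) (u : (𝓞 L)ˣ) : unitMap L σ u = unitsAct σ u := by
  apply Units.ext
  apply RingOfIntegers.ext
  rfl

end Places

/-! ### the unit lattice as a quotient of the `ℤ[G]`-module of units -/

section Count

variable {K : Type v} {L : Type u} [Field K] [NumberField K] [Field L] [NumberField L]
  [Algebra K L]

/-- the projection `𝓞ˣ → 𝓞ˣ/torsion` (helper41's `UnitLat`), additively -/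
noncomputable def toLat : (unitsRepr K L).asModule →+ UnitLat L :=
  MonoidHom.toAdditive (QuotientGroup.mk' (NumberField.Units.torsion L))

theorem toLat_apply (u : (unitsRepr K L).asModule) :
    toLat (K := K) u =
      Additive.ofMul (QuotientGroup.mk (Additive.toMul (u : Additive (𝓞 L)ˣ))) := rfl

theorem toLat_surjective : Function.Surjective (toLat (K := K) (L := L)) := by
  intro x
  induction x using Additive.rec with
  | ofMul x =>
    induction x using QuotientGroup.induction_on with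
    | H u => exact ⟨Additive.ofMul u, rfl⟩

theorem toLat_eq_zero_iff (u : (unitsRepr K L).asModule) :
    toLat (K := K) u = 0 ↔
      u ∈ torsionSub (R := MonoidAlgebra ℤ (L ≃ₐ[K] L)) (unitsRepr K L).asModule := by
  rw [mem_torsionSub]
  change (QuotientGroup.mk (Additive.toMul (u : Additive (𝓞 L)ˣ)) :
    (𝓞 L)ˣ ⧸ NumberField.Units.torsion L) = 1 ↔ _
  rw [QuotientGroup.eq_one_iff, NumberField.Units.torsion, CommGroup.mem_torsion,
    isOfFinOrder_iff_pow_eq_one]
  constructor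
  · rintro ⟨n, hn, h⟩
    exact ⟨n, hn, congrArg Additive.ofMul h⟩
  · rintro ⟨n, hn, h⟩
    exact ⟨n, hn, congrArg Additive.toMul h⟩

/-- equivariance of `toLat` (against helper41's `latMap`) -/
theorem toLat_of_smul (σ : L ≃ₐ[K] L) (u : (unitsRepr K L).asModule) :
    toLat (K := K) (MonoidAlgebra.of ℤ (L ≃ₐ[K] L) σ • u) = latMap L σ (toLat (K := K) u) := by
  have h : MonoidAlgebra.of ℤ (L ≃ₐ[K] L) σ • u =
      ((unitsActAdd σ (u : Additive (𝓞 L)ˣ) : Additive (𝓞 L)ˣ) : (unitsRepr K L).asModule) :=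
    of_smul_asModule _ σ u
  rw [h]
  change Additive.ofMul (QuotientGroup.mk (unitsAct σ (Additive.toMul (u : Additive (𝓞 L)ˣ)))) =
    Additive.ofMul (QuotientGroup.mk (unitMap L σ (Additive.toMul (u : Additive (𝓞 L)ˣ))))
  rw [unitMap_eq_unitsAct]

/-- the torsion submodule of the units is finite (roots of unity) -/
instance finite_torsionSub_units :
    Finite (torsionSub (R := MonoidAlgebra ℤ (L ≃ₐ[K] L)) (unitsRepr K L).asModule) := by
  have hmem : ∀ x : torsionSub (R := MonoidAlgebra ℤ (L ≃ₐ[K] L)) (unitsRepr K L).asModule,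
      Additive.toMul ((x : (unitsRepr K L).asModule) : Additive (𝓞 L)ˣ) ∈
        NumberField.Units.torsion L := by
    intro x
    have h := (toLat_eq_zero_iff (K := K) x.1).2 x.2
    exact (QuotientGroup.eq_one_iff _).1 (congrArg Additive.toMul h)
  refine Finite.of_injective (fun x => (⟨_, hmem x⟩ : NumberField.Units.torsion L)) ?_
  intro x y h
  have h2 := Subtype.mk.inj h
  exact Subtype.ext (Additive.toMul.injective h2)

/-- the induced map `𝓞ˣ/T → UnitLat`, `T` the torsion submodule -/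
noncomputable def liftLat :
    ((unitsRepr K L).asModule ⧸
      torsionSub (R := MonoidAlgebra ℤ (L ≃ₐ[K] L)) (unitsRepr K L).asModule) →+ UnitLat L :=
  QuotientAddGroup.lift
    (torsionSub (R := MonoidAlgebra ℤ (L ≃ₐ[K] L)) (unitsRepr K L).asModule).toAddSubgroup
    (toLat (K := K)) (fun u hu => AddMonoidHom.mem_ker.2 ((toLat_eq_zero_iff u).2 hu))

theorem liftLat_mk (u : (unitsRepr K L).asModule) :
    liftLat (K := K) (Submodule.Quotient.mk u) = toLat (K := K) u := rfl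

theorem liftLat_injective : Function.Injective (liftLat (K := K) (L := L)) := by
  rw [injective_iff_map_eq_zero]
  intro x hx
  obtain ⟨u, rfl⟩ := Submodule.Quotient.mk_surjective _ x
  rw [liftLat_mk, toLat_eq_zero_iff] at hx
  exact (Submodule.Quotient.mk_eq_zero _).2 hx

theorem liftLat_surjective : Function.Surjective (liftLat (K := K) (L := L)) := by
  intro y
  obtain ⟨u, rfl⟩ := toLat_surjective (K := K) y
  exact ⟨Submodule.Quotient.mk u, rfl⟩

/-- **equivariant unit count** (units of `𝓞 L`): for every additive function `φ` over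
`ℤ[Gal(L/K)]` and every model `N` of the trivial module `ℤ`,
`φ(𝓞ˣ/p) + φ(N/p) = φ(μ(L)[p]) + φ(𝔽_p[∞_L])`. -/
theorem phi_units_count {p : ℕ} (hp : 0 < p) {Z : Type uZ} [AddCommGroup Z]
    (Φ : AddFun.{u} (MonoidAlgebra ℤ (L ≃ₐ[K] L)) p Z) (N : Type u) [AddCommGroup N]
    [Module (MonoidAlgebra ℤ (L ≃ₐ[K] L)) N] (eN : N ≃+ ℤ)
    (hN : ∀ (σ : L ≃ₐ[K] L) (n : N), MonoidAlgebra.of ℤ (L ≃ₐ[K] L) σ • n = n) :
    Φ.φ (quo (R := MonoidAlgebra ℤ (L ≃ₐ[K] L)) p (unitsRepr K L).asModule) +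
        Φ.φ (quo (R := MonoidAlgebra ℤ (L ≃ₐ[K] L)) p N) =
      Φ.φ (tors (R := MonoidAlgebra ℤ (L ≃ₐ[K] L)) p
          (torsionSub (R := MonoidAlgebra ℤ (L ≃ₐ[K] L)) (unitsRepr K L).asModule)) +
        Φ.φ (quo (R := MonoidAlgebra ℤ (L ≃ₐ[K] L)) p (infRepr K L ℤ).asModule) := by
  classical
  obtain ⟨F, hF, hEq⟩ := exists_equivariant_rat_embedding L K
  -- finite generation
  have hUfg : AddGroup.FG (unitsRepr K L).asModule :=
    Module.Finite.iff_addGroup_fg.1 (inferInstanceAs (Module.Finite ℤ (Additive (𝓞 L)ˣ)))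
  have hQfg : AddGroup.FG ((unitsRepr K L).asModule ⧸
      torsionSub (R := MonoidAlgebra ℤ (L ≃ₐ[K] L)) (unitsRepr K L).asModule) := fg_quotient _
  have hNfg : AddGroup.FG N :=
    AddGroup.fg_of_surjective (f := eN.symm.toAddMonoidHom) eN.symm.surjective
  have hPfg : AddGroup.FG (infRepr K L ℤ).asModule :=
    Module.Finite.iff_addGroup_fg.1 (inferInstanceAs (Module.Finite ℤ (InfinitePlace L → ℤ)))
  -- the two lattices in `ℚ[∞_L]`
  let ι₁ : (((unitsRepr K L).asModule ⧸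
      torsionSub (R := MonoidAlgebra ℤ (L ≃ₐ[K] L)) (unitsRepr K L).asModule) × N) →+
      (InfinitePlace L → ℚ) :=
    F.comp (AddMonoidHom.prodMap (liftLat (K := K)) eN.toAddMonoidHom)
  let ι₂ : (infRepr K L ℤ).asModule →+ (InfinitePlace L → ℚ) :=
    AddMonoidHom.compLeft (Int.castAddHom ℚ) (InfinitePlace L)
  have hι₁_apply : ∀ x, ι₁ x = F (liftLat (K := K) x.1, eN x.2) := fun _ => rfl
  have hι₂_apply : ∀ (y : (infRepr K L ℤ).asModule) (w : InfinitePlace L),
      ι₂ y w = ((y w : ℤ) : ℚ) := fun _ _ => rfl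
  have hι₁ : Function.Injective ι₁ := by
    intro x y h
    rw [hι₁_apply, hι₁_apply] at h
    have h2 := hF h
    exact Prod.ext (liftLat_injective (Prod.mk.inj h2).1) (eN.injective (Prod.mk.inj h2).2)
  have hι₂ : Function.Injective ι₂ := by
    intro a b h
    funext w
    have := congrFun h w
    rw [hι₂_apply, hι₂_apply] at this
    exact Int.cast_injective this
  have hrk : finrank ℤ (UnitLat L × ℤ) = finrank ℚ (InfinitePlace L → ℚ) := by
    rw [finrank_unitLat_prod, Module.finrank_fintype_fun_eq_card]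
  have hspan₁ : ∀ v : InfinitePlace L → ℚ, ∃ n : ℕ, 0 < n ∧ n • v ∈ ι₁.range := by
    intro v
    obtain ⟨n, hn, y, hy⟩ := exists_nsmul_mem_range_of_injective F hF hrk v
    obtain ⟨q, hq⟩ := liftLat_surjective (K := K) y.1
    refine ⟨n, hn, (q, eN.symm y.2), ?_⟩
    rw [hι₁_apply, ← hy]
    change F (liftLat q, eN (eN.symm y.2)) = F y
    rw [hq, AddEquiv.apply_symm_apply]
  have hspan₂ : ∀ v : InfinitePlace L → ℚ, ∃ n : ℕ, 0 < n ∧ n • v ∈ ι₂.range := by
    intro v
    obtain ⟨n, hn, z, hz⟩ := exists_common_den v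
    refine ⟨n, hn, z, ?_⟩
    funext w
    change ((z w : ℤ) : ℚ) = (n • v) w
    rw [Pi.smul_apply, nsmul_eq_mul]
    exact (hz w).symm
  -- the `ℤ[G]`-action on `ℚ[∞_L]`
  let S₂ : MonoidAlgebra ℤ (L ≃ₐ[K] L) → (InfinitePlace L → ℚ) →+ (InfinitePlace L → ℚ) :=
    fun r => ((infRepr K L ℚ).asAlgebraHom r).toAddMonoidHom
  have h₂ : ∀ (r : MonoidAlgebra ℤ (L ≃ₐ[K] L)) (y : (infRepr K L ℤ).asModule),
      S₂ r (ι₂ y) = ι₂ (r • y) := by
    intro r y
    have hσ : ∀ (σ : L ≃ₐ[K] L) (m : (infRepr K L ℤ).asModule),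
        (show (infRepr K L ℤ).asModule →+ (infRepr K L ℚ).asModule from ι₂)
          (MonoidAlgebra.of ℤ (L ≃ₐ[K] L) σ • m) =
        MonoidAlgebra.of ℤ (L ≃ₐ[K] L) σ •
          (show (infRepr K L ℤ).asModule →+ (infRepr K L ℚ).asModule from ι₂) m := by
      intro σ m
      rw [of_smul_asModule, of_smul_asModule]
      rfl
    exact (map_smul_of_equivariant
      (show (infRepr K L ℤ).asModule →+ (infRepr K L ℚ).asModule from ι₂) hσ r y).symm
  have h₁ : ∀ (r : MonoidAlgebra ℤ (L ≃ₐ[K] L)) (x : ((unitsRepr K L).asModule ⧸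
      torsionSub (R := MonoidAlgebra ℤ (L ≃ₐ[K] L)) (unitsRepr K L).asModule) × N),
      (fun r => ⇑(S₂ r)) r (ι₁ x) = ι₁ (r • x) := by
    intro r x
    have hσ : ∀ (σ : L ≃ₐ[K] L) (m : ((unitsRepr K L).asModule ⧸
        torsionSub (R := MonoidAlgebra ℤ (L ≃ₐ[K] L)) (unitsRepr K L).asModule) × N),
        (show _ →+ (infRepr K L ℚ).asModule from ι₁)
          (MonoidAlgebra.of ℤ (L ≃ₐ[K] L) σ • m) =
        MonoidAlgebra.of ℤ (L ≃ₐ[K] L) σ •
          (show _ →+ (infRepr K L ℚ).asModule from ι₁) m := by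
      rintro σ ⟨q, n⟩
      obtain ⟨u, rfl⟩ := Submodule.Quotient.mk_surjective _ q
      rw [of_smul_asModule, Prod.smul_mk, hN, ← Submodule.Quotient.mk_smul]
      funext w
      change F (liftLat (K := K) (Submodule.Quotient.mk
        (MonoidAlgebra.of ℤ (L ≃ₐ[K] L) σ • u)), eN n) w =
        F (liftLat (K := K) (Submodule.Quotient.mk u), eN n) (σ⁻¹ • w)
      rw [liftLat_mk, liftLat_mk, toLat_of_smul]
      exact hEq σ _ _ w
    exact (map_smul_of_equivariant
      (show _ →+ (infRepr K L ℚ).asModule from ι₁) hσ r x).symm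
  exact Φ.phi_unit_count hp
    (torsionSub (R := MonoidAlgebra ℤ (L ≃ₐ[K] L)) (unitsRepr K L).asModule) ι₁ ι₂ hι₁ hι₂
    hspan₁ hspan₂ (LinearEquiv.refl ℚ _) (fun r => ⇑(S₂ r)) S₂ h₁ h₂ (fun _ _ => rfl)

/-- `U_S(L)[p] ≅ 𝓞_Lˣ[p] ≅ μ(L)[p]`: the three `p`-torsion modules have the same `φ` -/
theorem phi_tors_sUnits {p : ℕ} (hp : 0 < p) {Z : Type uZ} [AddCommGroup Z]
    (S : Set (HeightOneSpectrum (𝓞 K)))
    (Φ : AddFun.{u} (MonoidAlgebra ℤ (L ≃ₐ[K] L)) p Z) :
    Φ.φ (tors (R := MonoidAlgebra ℤ (L ≃ₐ[K] L)) p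
        (torsionSub (R := MonoidAlgebra ℤ (L ≃ₐ[K] L)) (unitsRepr K L).asModule)) =
      Φ.φ (tors (R := MonoidAlgebra ℤ (L ≃ₐ[K] L)) p (unitsRepr K L).asModule) ∧
    Φ.φ (tors (R := MonoidAlgebra ℤ (L ≃ₐ[K] L)) p (unitsRepr K L).asModule) =
      Φ.φ (tors (R := MonoidAlgebra ℤ (L ≃ₐ[K] L)) p (sUnitsRepr (L := L) S).asModule) := by
  have hU : HQFin (MonoidAlgebra ℤ (L ≃ₐ[K] L)) p (unitsRepr K L).asModule := by
    have : Module.Finite ℤ (unitsRepr K L).asModule :=
      inferInstanceAs (Module.Finite ℤ (Additive (𝓞 L)ˣ))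
    exact hqFin_of_finite_int hp.ne' _
  have := hU.tors
  constructor
  · refine phi_tors_eq_of_injective Φ
      (torsionSub (R := MonoidAlgebra ℤ (L ≃ₐ[K] L)) (unitsRepr K L).asModule).subtype
      (Submodule.injective_subtype _) ?_
    intro b hb
    exact ⟨⟨b, ⟨p, hp, hb⟩⟩, rfl⟩
  · refine phi_tors_eq_of_injective Φ (unitsInclMA (K := K) (L := L) S)
      (unitsInclMA_injective S) ?_
    intro b hb
    have h0 : valVecMA (L := L) S b = 0 := by
      apply permRepr_torsionFree hp.ne' S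
      rw [← map_nsmul, hb, map_zero]
    exact (exact_unitsInclMA_valVecMA S b).1 h0

/-- **THE EQUIVARIANT `S`-UNIT COUNT.**  `K ⊆ L` number fields, `S` a set of primes of `K` with
finitely many primes of `L` above it, `φ` any additive function on finite `p`-killed
`ℤ[Gal(L/K)]`-modules, `N` any model of the trivial module `ℤ`:

  `φ(U_S(L)/p) + φ(N/p) = φ(U_S(L)[p]) + φ(𝔽_p[S_L]) + φ(𝔽_p[∞_L])`. -/
theorem phi_sUnits_count {p : ℕ} (hp : 0 < p) {Z : Type uZ} [AddCommGroup Z]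
    (S : Set (HeightOneSpectrum (𝓞 K))) [Finite (above (L := L) S)]
    (Φ : AddFun.{u} (MonoidAlgebra ℤ (L ≃ₐ[K] L)) p Z) (N : Type u) [AddCommGroup N]
    [Module (MonoidAlgebra ℤ (L ≃ₐ[K] L)) N] (eN : N ≃+ ℤ)
    (hN : ∀ (σ : L ≃ₐ[K] L) (n : N), MonoidAlgebra.of ℤ (L ≃ₐ[K] L) σ • n = n) :
    Φ.φ (quo (R := MonoidAlgebra ℤ (L ≃ₐ[K] L)) p (sUnitsRepr (L := L) S).asModule) +
        Φ.φ (quo (R := MonoidAlgebra ℤ (L ≃ₐ[K] L)) p N) =
      Φ.φ (tors (R := MonoidAlgebra ℤ (L ≃ₐ[K] L)) p (sUnitsRepr (L := L) S).asModule) +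
        Φ.φ (quo (R := MonoidAlgebra ℤ (L ≃ₐ[K] L)) p (permRepr (L := L) S).asModule) +
        Φ.φ (quo (R := MonoidAlgebra ℤ (L ≃ₐ[K] L)) p (infRepr K L ℤ).asModule) := by
  have h1 : Φ.φ (quo (R := MonoidAlgebra ℤ (L ≃ₐ[K] L)) p (sUnitsRepr (L := L) S).asModule) -
      Φ.φ (tors (R := MonoidAlgebra ℤ (L ≃ₐ[K] L)) p (sUnitsRepr (L := L) S).asModule) =
      Φ.φ (quo (R := MonoidAlgebra ℤ (L ≃ₐ[K] L)) p (unitsRepr K L).asModule) -
        Φ.φ (tors (R := MonoidAlgebra ℤ (L ≃ₐ[K] L)) p (unitsRepr K L).asModule) +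
      Φ.φ (quo (R := MonoidAlgebra ℤ (L ≃ₐ[K] L)) p (permRepr (L := L) S).asModule) :=
    q_sUnits hp.ne' S Φ
  have h2 := phi_units_count hp Φ N eN hN
  obtain ⟨h3, h4⟩ := phi_tors_sUnits hp S Φ
  rw [h3, h4] at h2
  rw [h4] at h1
  -- abbreviations
  generalize Φ.φ (quo (R := MonoidAlgebra ℤ (L ≃ₐ[K] L)) p (sUnitsRepr (L := L) S).asModule)
    = a at h1 ⊢
  generalize Φ.φ (tors (R := MonoidAlgebra ℤ (L ≃ₐ[K] L)) p (sUnitsRepr (L := L) S).asModule)
    = b at h1 h2 ⊢
  generalize Φ.φ (quo (R := MonoidAlgebra ℤ (L ≃ₐ[K] L)) p (unitsRepr K L).asModule)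
    = c at h1 h2
  generalize Φ.φ (quo (R := MonoidAlgebra ℤ (L ≃ₐ[K] L)) p (permRepr (L := L) S).asModule)
    = e at h1 ⊢
  generalize Φ.φ (quo (R := MonoidAlgebra ℤ (L ≃ₐ[K] L)) p (infRepr K L ℤ).asModule)
    = f at h2 ⊢
  generalize Φ.φ (quo (R := MonoidAlgebra ℤ (L ≃ₐ[K] L)) p N) = n at h2 ⊢
  -- `h1 : a - b = c - b + e`, `h2 : c + n = b + f`; goal `a + n = b + e + f`
  calc a + n = (a - b) + b + n := by abel
    _ = (c - b + e) + b + n := by rw [h1]
    _ = (c + n) + e := by abel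
    _ = (b + f) + e := by rw [h2]
    _ = b + e + f := by abel

end Count

/-- the same with `N := ℤ` with trivial action (`L` in `Type`) -/
theorem phi_sUnits_count_triv {K : Type v} {L : Type} [Field K] [NumberField K] [Field L]
    [NumberField L] [Algebra K L] {p : ℕ} (hp : 0 < p) {Z : Type uZ} [AddCommGroup Z]
    (S : Set (HeightOneSpectrum (𝓞 K))) [Finite (above (L := L) S)]
    (Φ : AddFun.{0} (MonoidAlgebra ℤ (L ≃ₐ[K] L)) p Z) :
    Φ.φ (quo (R := MonoidAlgebra ℤ (L ≃ₐ[K] L)) p (sUnitsRepr (L := L) S).asModule) +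
        Φ.φ (quo (R := MonoidAlgebra ℤ (L ≃ₐ[K] L)) p
          (Representation.trivial ℤ (L ≃ₐ[K] L) ℤ).asModule) =
      Φ.φ (tors (R := MonoidAlgebra ℤ (L ≃ₐ[K] L)) p (sUnitsRepr (L := L) S).asModule) +
        Φ.φ (quo (R := MonoidAlgebra ℤ (L ≃ₐ[K] L)) p (permRepr (L := L) S).asModule) +
        Φ.φ (quo (R := MonoidAlgebra ℤ (L ≃ₐ[K] L)) p (infRepr K L ℤ).asModule) :=
  phi_sUnits_count hp S Φ (Representation.trivial ℤ (L ≃ₐ[K] L) ℤ).asModule
    (show (Representation.trivial ℤ (L ≃ₐ[K] L) ℤ).asModule ≃+ ℤ from AddEquiv.refl ℤ)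
    (fun σ n => by rw [of_smul_asModule]; rfl)

end Fermat.Agent.GP.GW.EqSUnits
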