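/-
GATE-P / S56 [P-GW] (helper54), leaf S56-GW-UNIT-MUP: evaluation of the SMALL terms of the
equivariant unit count `UnitCount.phi_sUnits_count` on the objects of `GP/GW/EqSUnits`:

* (M1) `U_S(L)[p] = μ_p(L)`: for `ζ ∈ L` a primitive `p`-th root of unity (`p` prime) an additive
  iso `torsZetaEquiv : tors p U_S ≃+ ZMod p` with `σ` acting through `m` whenever `σ ζ = ζ ^ m`;
* (M2) `ℤ[T]/p = 𝔽_p[T]`: `quoPiEquiv : quo p ρ.asModule ≃+ (ι → ZMod p)` for every representation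
  `ρ` of `G` on `ι → ℤ`, compatible with substitution operators; instances `T = above S`
  (`permRepr`) and `T = InfinitePlace L` (`infRepr`);
* (M3) `N/p = 𝔽_p` with trivial action for a model `N` of the trivial module `ℤ`.
-/
import Fermat.Agent.GP.GW.EqSUnits.UnitCount

set_option autoImplicit false

open NumberField IsDedekindDomain Module

namespace Fermat.Agent.GP.GW.EqSUnits

open Fermat.Agent.S14.SI.SU Fermat.Agent.GC.SUnitHQ Fermat.Agent.GP.GW.HerbrandAdd

set_option linter.unusedSectionVars false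

universe u v

/-! ### (M2) permutation lattices modulo `p` -/

section PiRed

variable {G : Type*} [Group G] {ι : Type*} (p : ℕ)

/-- reduction modulo `p` of integer valued functions -/
def piCast (ι : Type*) : (ι → ℤ) →+ (ι → ZMod p) :=
  AddMonoidHom.compLeft (Int.castAddHom (ZMod p)) ι

theorem piCast_apply (f : ι → ℤ) (i : ι) : piCast p ι f i = ((f i : ℤ) : ZMod p) := rfl

theorem piCast_surjective : Function.Surjective (piCast p ι) := by
  intro g
  choose f hf using fun i => ZMod.intCast_surjective (g i)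
  exact ⟨f, funext hf⟩

theorem piCast_eq_zero_iff (f : ι → ℤ) : piCast p ι f = 0 ↔ ∃ g : ι → ℤ, p • g = f := by
  constructor
  · intro h
    have hdvd : ∀ i, (p : ℤ) ∣ f i := fun i =>
      (ZMod.intCast_zmod_eq_zero_iff_dvd (f i) p).1 (congrFun h i)
    choose g hg using hdvd
    refine ⟨g, funext fun i => ?_⟩
    rw [Pi.smul_apply, nsmul_eq_mul, hg i]
  · rintro ⟨g, rfl⟩
    funext i
    rw [piCast_apply, Pi.smul_apply, nsmul_eq_mul]
    push_cast
    rw [ZMod.natCast_self, zero_mul]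
    rfl

variable (ρ : Representation ℤ G (ι → ℤ))

/-- `ℤ[ι]/p → 𝔽_p[ι]` -/
noncomputable def quoPi : quo (R := MonoidAlgebra ℤ G) p ρ.asModule →+ (ι → ZMod p) :=
  QuotientAddGroup.lift (pRange (R := MonoidAlgebra ℤ G) p ρ.asModule).toAddSubgroup
    (show ρ.asModule →+ (ι → ZMod p) from piCast p ι)
    (fun f hf => AddMonoidHom.mem_ker.2 ((piCast_eq_zero_iff p f).2 hf))

theorem quoPi_mk (f : ρ.asModule) :
    quoPi p ρ (Submodule.Quotient.mk f) = piCast p ι (f : ι → ℤ) := rfl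

theorem quoPi_bijective : Function.Bijective (quoPi p ρ) := by
  constructor
  · rw [injective_iff_map_eq_zero]
    intro x hx
    obtain ⟨f, rfl⟩ := Submodule.Quotient.mk_surjective _ x
    have hx' : piCast p ι (f : ι → ℤ) = 0 := hx
    exact (Submodule.Quotient.mk_eq_zero _).2 ((piCast_eq_zero_iff p (f : ι → ℤ)).1 hx')
  · intro g
    obtain ⟨f, rfl⟩ := piCast_surjective p g
    exact ⟨Submodule.Quotient.mk (show ρ.asModule from f), rfl⟩

/-- **`ℤ[ι]/p ≃ 𝔽_p[ι]`** -/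
noncomputable def quoPiEquiv : quo (R := MonoidAlgebra ℤ G) p ρ.asModule ≃+ (ι → ZMod p) :=
  AddEquiv.ofBijective (quoPi p ρ) (quoPi_bijective p ρ)

theorem quoPiEquiv_mk (f : ρ.asModule) (i : ι) :
    quoPiEquiv p ρ (Submodule.Quotient.mk f) i = (((f : ι → ℤ) i : ℤ) : ZMod p) := rfl

/-- if `σ` acts on `ι → ℤ` by substitution along `π : ι → ι`, it acts on `ι → ZMod p` in the same
way -/
theorem quoPiEquiv_of_smul (σ : G) (π : ι → ι) (hπ : ∀ (f : ι → ℤ) (i : ι), ρ σ f i = f (π i))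
    (x : quo (R := MonoidAlgebra ℤ G) p ρ.asModule) (i : ι) :
    quoPiEquiv p ρ (MonoidAlgebra.of ℤ G σ • x) i = quoPiEquiv p ρ x (π i) := by
  obtain ⟨f, rfl⟩ := Submodule.Quotient.mk_surjective _ x
  rw [← Submodule.Quotient.mk_smul, quoPiEquiv_mk, quoPiEquiv_mk]
  have h : MonoidAlgebra.of ℤ G σ • f = (show ρ.asModule from ρ σ (f : ι → ℤ)) :=
    of_smul_asModule ρ σ f
  rw [h]
  exact congrArg (Int.cast : ℤ → ZMod p) (hπ _ i)

end PiRed

/-! ### (M2), instances: primes above `S` and infinite places -/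

section PiRedInst

variable {K : Type v} {L : Type u} [Field K] [NumberField K] [Field L] [NumberField L]
  [Algebra K L] (p : ℕ)

/-- `𝔽_p[S_L]`: `σ` acts on `quo p ℤ[S_L] ≃ (above S → ZMod p)` by `(σ f)(w) = f (σ⁻¹ w)` -/
theorem quoPiEquiv_permRepr (S : Set (HeightOneSpectrum (𝓞 K))) (σ : L ≃ₐ[K] L)
    (x : quo (R := MonoidAlgebra ℤ (L ≃ₐ[K] L)) p (permRepr (L := L) S).asModule)
    (w : above (L := L) S) :
    quoPiEquiv p (permRepr (L := L) S) (MonoidAlgebra.of ℤ (L ≃ₐ[K] L) σ • x) w =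
      quoPiEquiv p (permRepr (L := L) S) x (pullAbove S σ w) :=
  quoPiEquiv_of_smul p _ σ (pullAbove S σ) (fun _ _ => rfl) x w

/-- `𝔽_p[∞_L]`: `σ` acts on `quo p ℤ[∞_L] ≃ (InfinitePlace L → ZMod p)` by
`(σ f)(w) = f (σ⁻¹ • w)` -/
theorem quoPiEquiv_infRepr (σ : L ≃ₐ[K] L)
    (x : quo (R := MonoidAlgebra ℤ (L ≃ₐ[K] L)) p (infRepr K L ℤ).asModule)
    (w : InfinitePlace L) :
    quoPiEquiv p (infRepr K L ℤ) (MonoidAlgebra.of ℤ (L ≃ₐ[K] L) σ • x) w =
      quoPiEquiv p (infRepr K L ℤ) x (σ⁻¹ • w) :=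
  quoPiEquiv_of_smul p _ σ (fun w => σ⁻¹ • w) (fun _ _ => rfl) x w

end PiRedInst

/-! ### (M3) the trivial module -/

section Triv

variable {R : Type*} [Ring R] (p : ℕ) {N : Type*} [AddCommGroup N] [Module R N] (eN : N ≃+ ℤ)

/-- `N/p → 𝔽_p` for `N ≃ ℤ` -/
noncomputable def quoTriv : quo (R := R) p N →+ ZMod p :=
  QuotientAddGroup.lift (pRange (R := R) p N).toAddSubgroup
    ((Int.castAddHom (ZMod p)).comp eN.toAddMonoidHom)
    (by
      rintro n ⟨m, rfl⟩
      rw [AddMonoidHom.mem_ker]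
      change ((eN (p • m) : ℤ) : ZMod p) = 0
      rw [map_nsmul, nsmul_eq_mul]
      push_cast
      rw [ZMod.natCast_self, zero_mul])

theorem quoTriv_mk (n : N) : quoTriv (R := R) p eN (Submodule.Quotient.mk n) = ((eN n : ℤ) : ZMod p) :=
  rfl

theorem quoTriv_bijective : Function.Bijective (quoTriv (R := R) p eN) := by
  constructor
  · rw [injective_iff_map_eq_zero]
    intro x hx
    obtain ⟨n, rfl⟩ := Submodule.Quotient.mk_surjective _ x
    rw [quoTriv_mk, ZMod.intCast_zmod_eq_zero_iff_dvd] at hx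
    obtain ⟨k, hk⟩ := hx
    apply (Submodule.Quotient.mk_eq_zero _).2
    refine ⟨eN.symm k, ?_⟩
    change p • eN.symm k = n
    apply eN.injective
    rw [map_nsmul, AddEquiv.apply_symm_apply, hk, nsmul_eq_mul]
  · intro a
    obtain ⟨k, rfl⟩ := ZMod.intCast_surjective a
    refine ⟨Submodule.Quotient.mk (eN.symm k), ?_⟩
    rw [quoTriv_mk, AddEquiv.apply_symm_apply]

/-- **`N/p ≃ 𝔽_p`** for a model `N` of `ℤ` -/
noncomputable def quoTrivEquiv : quo (R := R) p N ≃+ ZMod p :=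
  AddEquiv.ofBijective (quoTriv (R := R) p eN) (quoTriv_bijective p eN)

theorem quoTrivEquiv_mk (n : N) :
    quoTrivEquiv (R := R) p eN (Submodule.Quotient.mk n) = ((eN n : ℤ) : ZMod p) := rfl

end Triv

/-- the group acts trivially on `N/p` if it does on `N` -/
theorem of_smul_quo_triv {G : Type*} [Group G] (p : ℕ) {N : Type*} [AddCommGroup N]
    [Module (MonoidAlgebra ℤ G) N] (hN : ∀ (σ : G) (n : N), MonoidAlgebra.of ℤ G σ • n = n)
    (σ : G) (x : quo (R := MonoidAlgebra ℤ G) p N) : MonoidAlgebra.of ℤ G σ • x = x := by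
  obtain ⟨n, rfl⟩ := Submodule.Quotient.mk_surjective _ x
  rw [← Submodule.Quotient.mk_smul, hN]

/-! ### (M1) `U_S(L)[p] = μ_p(L)` -/

section MuP

variable {K : Type v} {L : Type u} [Field K] [NumberField K] [Field L] [NumberField L]
  [Algebra K L]

/-- a root of unity is a `T`-unit for every `T` -/
theorem rootOfUnity_mem_unit (T : Set (HeightOneSpectrum (𝓞 L))) {n : ℕ} (hn : n ≠ 0) (y : Lˣ)
    (hy : y ^ n = 1) : y ∈ T.unit L := by
  intro w _
  change w.valuation L (y : L) = 1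
  apply zpow_eq_one_int hn
  rw [← map_pow, ← Units.val_pow_eq_pow_val, hy, Units.val_one, map_one]

variable {p : ℕ} (hp : p.Prime) {ζ : L} (hζ : IsPrimitiveRoot ζ p)
  (S : Set (HeightOneSpectrum (𝓞 K)))

/-- `ζ` as an `S`-unit of `L` -/
noncomputable def zetaS : (above (L := L) S).unit L :=
  ⟨Units.mk0 ζ (hζ.ne_zero hp.ne_zero), rootOfUnity_mem_unit _ hp.ne_zero _ (by
    apply Units.ext
    rw [Units.val_pow_eq_pow_val, Units.val_mk0, hζ.pow_eq_one, Units.val_one])⟩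

theorem coe_zetaS : (((zetaS hp hζ S : (above (L := L) S).unit L) : Lˣ) : L) = ζ := rfl

theorem zetaS_pow_eq_one_iff (k : ℤ) : zetaS hp hζ S ^ k = 1 ↔ (p : ℤ) ∣ k := by
  rw [← hζ.zpow_eq_one_iff_dvd]
  constructor
  · intro h
    have h2 := congrArg (fun y : (above (L := L) S).unit L => ((y : Lˣ) : L)) h
    simpa [coe_zetaS] using h2
  · intro h
    apply Subtype.ext
    apply Units.ext
    rw [Subgroup.coe_zpow, Units.val_zpow_eq_zpow_val, coe_zetaS, h]
    rfl

/-- the class of `ζ` in `U_S(L)[p]` -/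
noncomputable def zetaTors :
    tors (R := MonoidAlgebra ℤ (L ≃ₐ[K] L)) p (sUnitsRepr (L := L) S).asModule :=
  ⟨(show (sUnitsRepr (L := L) S).asModule from Additive.ofMul (zetaS hp hζ S)), by
    rw [mem_tors]
    have h := (zetaS_pow_eq_one_iff hp hζ S (p : ℤ)).2 dvd_rfl
    rw [zpow_natCast] at h
    exact congrArg Additive.ofMul h⟩

theorem coe_zetaTors :
    ((zetaTors (K := K) hp hζ S : (sUnitsRepr (L := L) S).asModule) :
      Additive ((above (L := L) S).unit L)) = Additive.ofMul (zetaS hp hζ S) := rfl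

/-- every element of `U_S(L)[p]` is a multiple of `[ζ]` -/
theorem exists_nsmul_zetaTors
    (x : tors (R := MonoidAlgebra ℤ (L ≃ₐ[K] L)) p (sUnitsRepr (L := L) S).asModule) :
    ∃ i : ℕ, x = i • zetaTors (K := K) hp hζ S := by
  set y : (above (L := L) S).unit L :=
    Additive.toMul ((x : (sUnitsRepr (L := L) S).asModule) :
      Additive ((above (L := L) S).unit L)) with hy
  have h0 : p • (x : (sUnitsRepr (L := L) S).asModule) = 0 := (mem_tors p).1 x.2
  have hyp : y ^ p = 1 := congrArg Additive.toMul h0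
  have : NeZero p := ⟨hp.ne_zero⟩
  have hyL : (((y : Lˣ) : L)) ^ p = 1 := by
    have h2 := congrArg (fun t : (above (L := L) S).unit L => ((t : Lˣ) : L)) hyp
    simpa using h2
  obtain ⟨i, -, hi⟩ := hζ.eq_pow_of_pow_eq_one hyL
  refine ⟨i, ?_⟩
  apply Subtype.ext
  rw [AddSubmonoidClass.coe_nsmul]
  change Additive.ofMul y = Additive.ofMul (zetaS hp hζ S ^ i)
  congr 1
  apply Subtype.ext
  apply Units.ext
  rw [Subgroup.coe_pow, Units.val_pow_eq_pow_val, coe_zetaS, hi]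

include hp hζ in
/-- `σ` acts on `U_S(L)[p] = μ_p` through the exponent `m`, if `σ ζ = ζ ^ m` -/
theorem of_smul_tors_sUnits (σ : L ≃ₐ[K] L) (m : ℕ) (hσ : σ ζ = ζ ^ m)
    (x : tors (R := MonoidAlgebra ℤ (L ≃ₐ[K] L)) p (sUnitsRepr (L := L) S).asModule) :
    MonoidAlgebra.of ℤ (L ≃ₐ[K] L) σ • x = m • x := by
  have hz : MonoidAlgebra.of ℤ (L ≃ₐ[K] L) σ • zetaTors (K := K) hp hζ S =
      m • zetaTors (K := K) hp hζ S := by
    apply Subtype.ext
    rw [Submodule.coe_smul, AddSubmonoidClass.coe_nsmul]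
    have h : MonoidAlgebra.of ℤ (L ≃ₐ[K] L) σ •
        (zetaTors (K := K) hp hζ S : (sUnitsRepr (L := L) S).asModule) =
        (show (sUnitsRepr (L := L) S).asModule from
          Additive.ofMul (sAct S σ (zetaS hp hζ S))) :=
      of_smul_asModule _ σ _
    rw [h]
    change Additive.ofMul (sAct S σ (zetaS hp hζ S)) = Additive.ofMul (zetaS hp hζ S ^ m)
    congr 1
    apply Subtype.ext
    apply Units.ext
    rw [coe_sAct, coe_zetaS, hσ, Subgroup.coe_pow, Units.val_pow_eq_pow_val, coe_zetaS]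
  obtain ⟨i, rfl⟩ := exists_nsmul_zetaTors (K := K) hp hζ S x
  rw [smul_comm, hz, smul_comm]

/-- `𝔽_p → U_S(L)[p]`, `1 ↦ [ζ]` -/
noncomputable def zmodToTors :
    ZMod p →+ tors (R := MonoidAlgebra ℤ (L ≃ₐ[K] L)) p (sUnitsRepr (L := L) S).asModule :=
  ZMod.lift p ⟨zmultiplesHom _ (zetaTors (K := K) hp hζ S), by
    rw [zmultiplesHom_apply, natCast_zsmul]
    exact tors_killed p _⟩

theorem zmodToTors_intCast (k : ℤ) :
    zmodToTors (K := K) hp hζ S (k : ZMod p) = k • zetaTors (K := K) hp hζ S := by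
  rw [zmodToTors, ZMod.lift_coe]
  rfl

theorem zmodToTors_bijective : Function.Bijective (zmodToTors (K := K) hp hζ S) := by
  constructor
  · rw [injective_iff_map_eq_zero]
    intro a ha
    obtain ⟨k, rfl⟩ := ZMod.intCast_surjective a
    rw [zmodToTors_intCast] at ha
    have h1 := congrArg Subtype.val ha
    rw [Submodule.coe_smul_of_tower] at h1
    have h2 : zetaS hp hζ S ^ k = 1 := congrArg Additive.toMul h1
    rw [zetaS_pow_eq_one_iff] at h2
    exact (ZMod.intCast_zmod_eq_zero_iff_dvd k p).2 h2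
  · intro x
    obtain ⟨i, rfl⟩ := exists_nsmul_zetaTors (K := K) hp hζ S x
    refine ⟨((i : ℤ) : ZMod p), ?_⟩
    rw [zmodToTors_intCast, natCast_zsmul]

/-- **`U_S(L)[p] ≃ 𝔽_p`** (for `ζ_p ∈ L`), `[ζ] ↦ 1` -/
noncomputable def torsZetaEquiv :
    tors (R := MonoidAlgebra ℤ (L ≃ₐ[K] L)) p (sUnitsRepr (L := L) S).asModule ≃+ ZMod p :=
  (AddEquiv.ofBijective (zmodToTors (K := K) hp hζ S) (zmodToTors_bijective hp hζ S)).symm

theorem torsZetaEquiv_zetaTors :
    torsZetaEquiv (K := K) hp hζ S (zetaTors (K := K) hp hζ S) = 1 := by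
  rw [torsZetaEquiv, AddEquiv.symm_apply_eq]
  have := zmodToTors_intCast (K := K) hp hζ S 1
  rw [Int.cast_one, one_smul] at this
  exact this.symm

/-- `σ` acts on `U_S(L)[p] ≃ 𝔽_p` by multiplication by `m`, if `σ ζ = ζ ^ m` -/
theorem torsZetaEquiv_of_smul (σ : L ≃ₐ[K] L) (m : ℕ) (hσ : σ ζ = ζ ^ m)
    (x : tors (R := MonoidAlgebra ℤ (L ≃ₐ[K] L)) p (sUnitsRepr (L := L) S).asModule) :
    torsZetaEquiv (K := K) hp hζ S (MonoidAlgebra.of ℤ (L ≃ₐ[K] L) σ • x) =
      (m : ZMod p) * torsZetaEquiv (K := K) hp hζ S x := by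
  rw [of_smul_tors_sUnits hp hζ S σ m hσ, map_nsmul, nsmul_eq_mul]

include hp hζ in
theorem card_tors_sUnits :
    Nat.card (tors (R := MonoidAlgebra ℤ (L ≃ₐ[K] L)) p (sUnitsRepr (L := L) S).asModule) = p := by
  rw [Nat.card_congr (torsZetaEquiv (K := K) hp hζ S).toEquiv, Nat.card_zmod]

end MuP

end Fermat.Agent.GP.GW.EqSUnits
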