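/-
GATE-P / S56 [P-GW] (helper54), leaf S56-GW-UNIT-CHARPOLY: the equivariant `S`-unit theorem modulo
`p` in CHARACTERISTIC POLYNOMIAL form, on the Mathlib side.  `K ⊆ L` number fields, `ζ_p ∈ L`,
`S` a finite set of primes of `K`, `σ ∈ Gal(L/K)` with `σ ζ = ζ ^ m`:

  `charpoly (σ | U_S(L)/p) * (X - 1)
      = (X - C m) * charpoly (σ | 𝔽_p[S_L]) * charpoly (σ | 𝔽_p[∞_L])`      in `(ZMod p)[X]`,

where `σ` acts on `𝔽_p[T]` (`T = S_L` the primes of `L` above `S`, `T = ∞_L` the infinite places) by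
substitution `f ↦ f ∘ σ⁻¹` (`LinearMap.funLeft`).  From `UnitCount.phi_sUnits_count` with
`Φ := multAddFun` (helper51 `CharpolyAddFun`) and `MuP`.
-/
import Fermat.Agent.GP.GW.Euler.CharpolyAddFun
import Fermat.Agent.GP.GW.EqSUnits.MuP

set_option autoImplicit false

open NumberField IsDedekindDomain Module Polynomial

namespace Fermat.Agent.GP.GW.EqSUnits

open Fermat.Agent.S14.SI.SU Fermat.Agent.GC.SUnitHQ Fermat.Agent.GP.GW.HerbrandAdd
  Fermat.Agent.GP.GW.CharpolyAddFun Fermat.Agent.GP.GW.CharpolyCalc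

set_option linter.unusedSectionVars false

universe u v uR

/-! ### generic charpoly lemmas -/

section Generic

variable {R : Type uR} [Ring R] (r : R) {p : ℕ} [Fact p.Prime]

/-- transport of `smulEnd` along an additive equivalence -/
theorem charpoly_smulEnd_of_addEquiv {M V : Type*} [AddCommGroup M] [Module R M]
    [Module (ZMod p) M] [Finite M] [AddCommGroup V] [Module (ZMod p) V]
    [Module.Finite (ZMod p) V] (e : M ≃+ V)
    (T : V →ₗ[ZMod p] V) (h : ∀ x, e (r • x) = T (e x)) :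
    (smulEnd p r M).charpoly = T.charpoly := by
  have : Module.Finite (ZMod p) M := Module.Finite.of_finite
  let E : M ≃ₗ[ZMod p] V :=
    LinearEquiv.ofBijective (e.toAddMonoidHom.toZModLinearMap p) e.bijective
  have hE : ∀ x, E x = e x := fun _ => rfl
  have hconj : E.conj (smulEnd p r M) = T := by
    refine LinearMap.ext fun v => ?_
    rw [LinearEquiv.conj_apply_apply, smulEnd_apply, hE, h, ← hE, LinearEquiv.apply_symm_apply]
  rw [← hconj, LinearEquiv.charpoly_conj]

/-- multiplication by `c` on `ZMod p` has characteristic polynomial `X - C c` -/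
theorem charpoly_mulLeft_zmod (c : ZMod p) :
    (LinearMap.mulLeft (ZMod p) c).charpoly = X - C c := by
  rw [← LinearMap.charpoly_toMatrix (LinearMap.mulLeft (ZMod p) c)
    (Basis.singleton Unit (ZMod p))]
  have : LinearMap.toMatrix (Basis.singleton Unit (ZMod p)) (Basis.singleton Unit (ZMod p))
      (LinearMap.mulLeft (ZMod p) c) = Matrix.diagonal fun _ => c := by
    ext i j
    rw [LinearMap.toMatrix_apply, Basis.singleton_apply, LinearMap.mulLeft_apply, mul_one,
      Basis.singleton_repr, Matrix.diagonal_apply_eq]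
  rw [this, Matrix.charpoly_diagonal, Finset.univ_unique, Finset.prod_singleton]

/-- a module `≃+ ZMod p` on which `r` acts through the scalar `c` -/
theorem charpoly_smulEnd_of_equiv_zmod {M : Type*} [AddCommGroup M] [Module R M]
    [Module (ZMod p) M] [Finite M] (e : M ≃+ ZMod p) (c : ZMod p)
    (h : ∀ x, e (r • x) = c * e x) : (smulEnd p r M).charpoly = X - C c := by
  rw [charpoly_smulEnd_of_addEquiv r e (LinearMap.mulLeft (ZMod p) c) h, charpoly_mulLeft_zmod]

/-- **from multiplicities to a product identity of characteristic polynomials** -/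
theorem charpoly_mul_eq_of_multVal {A B C D E : Type*}
    [AddCommGroup A] [Module R A] [Module (ZMod p) A] [Finite A]
    [AddCommGroup B] [Module R B] [Module (ZMod p) B] [Finite B]
    [AddCommGroup C] [Module R C] [Module (ZMod p) C] [Finite C]
    [AddCommGroup D] [Module R D] [Module (ZMod p) D] [Finite D]
    [AddCommGroup E] [Module R E] [Module (ZMod p) E] [Finite E]
    (h : ∀ f : (ZMod p)[X], f.Monic → Irreducible f →
      multVal r f A + multVal r f B = multVal r f C + multVal r f D + multVal r f E) :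
    (smulEnd p r A).charpoly * (smulEnd p r B).charpoly =
      (smulEnd p r C).charpoly * (smulEnd p r D).charpoly * (smulEnd p r E).charpoly := by
  have hA : Module.Finite (ZMod p) A := Module.Finite.of_finite
  have hB : Module.Finite (ZMod p) B := Module.Finite.of_finite
  have hC : Module.Finite (ZMod p) C := Module.Finite.of_finite
  have hD : Module.Finite (ZMod p) D := Module.Finite.of_finite
  have hE : Module.Finite (ZMod p) E := Module.Finite.of_finite
  apply eq_of_multiplicity_eq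
    ((smulEnd p r A).charpoly_monic.mul (smulEnd p r B).charpoly_monic)
    (((smulEnd p r C).charpoly_monic.mul (smulEnd p r D).charpoly_monic).mul
      (smulEnd p r E).charpoly_monic)
  intro f hfm hfi
  have hfin : ∀ P : (ZMod p)[X], P ≠ 0 → FiniteMultiplicity f P := fun P hP =>
    FiniteMultiplicity.of_not_isUnit hfi.not_isUnit hP
  have key := h f hfm hfi
  rw [multVal_eq r f A, multVal_eq r f B, multVal_eq r f C, multVal_eq r f D,
    multVal_eq r f E] at key
  unfold multIn at key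
  have a0 := (smulEnd p r A).charpoly_monic.ne_zero
  have b0 := (smulEnd p r B).charpoly_monic.ne_zero
  have c0 := (smulEnd p r C).charpoly_monic.ne_zero
  have d0 := (smulEnd p r D).charpoly_monic.ne_zero
  have e0 := (smulEnd p r E).charpoly_monic.ne_zero
  rw [multiplicity_mul hfi.prime (hfin _ (mul_ne_zero a0 b0)),
    multiplicity_mul hfi.prime (hfin _ (mul_ne_zero (mul_ne_zero c0 d0) e0)),
    multiplicity_mul hfi.prime (hfin _ (mul_ne_zero c0 d0))]
  exact_mod_cast key

end Generic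

/-! ### the unit theorem modulo `p` in characteristic polynomial form -/

section Main

variable {K : Type v} {L : Type u} [Field K] [NumberField K] [Field L] [NumberField L]
  [Algebra K L]

/-- `U_S(L)/p` is finite -/
instance finite_quo_sUnits {p : ℕ} [Fact p.Prime] (S : Set (HeightOneSpectrum (𝓞 K)))
    [Finite (above (L := L) S)] :
    Finite (quo (R := MonoidAlgebra ℤ (L ≃ₐ[K] L)) p (sUnitsRepr (L := L) S).asModule) := by
  have : Module.Finite ℤ (sUnitsRepr (L := L) S).asModule := finite_sUnitsRepr S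
  exact (hqFin_of_finite_int (R := MonoidAlgebra ℤ (L ≃ₐ[K] L))
    (Fact.out : p.Prime).ne_zero (sUnitsRepr (L := L) S).asModule).quo

/-- **Equivariant `S`-unit theorem modulo `p`, characteristic polynomial form.**
`ζ ∈ L` a primitive `p`-th root of unity, `σ ∈ Gal(L/K)` with `σ ζ = ζ ^ m`:

`charpoly (σ | U_S(L)/p) * (X - 1) = (X - m) * charpoly (σ | 𝔽_p[S_L]) * charpoly (σ | 𝔽_p[∞_L])`
in `(ZMod p)[X]`; `σ` acts on `𝔽_p[S_L] = (above S → ZMod p)` by `f ↦ f ∘ pullAbove S σ`
(`pullAbove S σ w = σ⁻¹(w)`) and on `𝔽_p[∞_L] = (InfinitePlace L → ZMod p)` by `f ↦ f ∘ (σ⁻¹ • ·)`.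
The `ZMod p`-module structure on `U_S(L)/p` is arbitrary (it is unique). -/
theorem unit_charpoly {p : ℕ} [Fact p.Prime] {ζ : L} (hζ : IsPrimitiveRoot ζ p)
    (S : Set (HeightOneSpectrum (𝓞 K))) [Finite (above (L := L) S)]
    (σ : L ≃ₐ[K] L) (m : ℕ) (hσ : σ ζ = ζ ^ m)
    [Module (ZMod p) (quo (R := MonoidAlgebra ℤ (L ≃ₐ[K] L)) p (sUnitsRepr (L := L) S).asModule)] :
    (smulEnd p (MonoidAlgebra.of ℤ (L ≃ₐ[K] L) σ)
        (quo (R := MonoidAlgebra ℤ (L ≃ₐ[K] L)) p (sUnitsRepr (L := L) S).asModule)).charpoly *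
        (X - 1) =
      (X - C (m : ZMod p)) *
        (LinearMap.funLeft (ZMod p) (ZMod p) (pullAbove (L := L) S σ)).charpoly *
        (LinearMap.funLeft (ZMod p) (ZMod p) (fun w : InfinitePlace L => σ⁻¹ • w)).charpoly := by
  classical
  have hp : p.Prime := Fact.out
  -- the trivial module
  suffices main : ∀ (N : Type u) [AddCommGroup N] [Module (MonoidAlgebra ℤ (L ≃ₐ[K] L)) N]
      (eN : N ≃+ ℤ)
      (hN : ∀ (τ : L ≃ₐ[K] L) (n : N), MonoidAlgebra.of ℤ (L ≃ₐ[K] L) τ • n = n),
      (smulEnd p (MonoidAlgebra.of ℤ (L ≃ₐ[K] L) σ)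
        (quo (R := MonoidAlgebra ℤ (L ≃ₐ[K] L)) p (sUnitsRepr (L := L) S).asModule)).charpoly *
        (X - 1) =
      (X - C (m : ZMod p)) *
        (LinearMap.funLeft (ZMod p) (ZMod p) (pullAbove (L := L) S σ)).charpoly *
        (LinearMap.funLeft (ZMod p) (ZMod p) (fun w : InfinitePlace L => σ⁻¹ • w)).charpoly by
    refine main (Representation.trivial ℤ (L ≃ₐ[K] L) (ULift.{u} ℤ)).asModule
      (show (Representation.trivial ℤ (L ≃ₐ[K] L) (ULift.{u} ℤ)).asModule ≃+ ℤ from
        (AddEquiv.ulift : ULift.{u} ℤ ≃+ ℤ)) ?_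
    intro τ n
    rw [of_smul_asModule]
    rfl
  intro N _ _ eN hN
  -- `ZMod p`-structures on the four small modules
  let iN : Module (ZMod p) (quo (R := MonoidAlgebra ℤ (L ≃ₐ[K] L)) p N) :=
    AddCommGroup.zmodModule (quo_killed p)
  let iT : Module (ZMod p)
      (tors (R := MonoidAlgebra ℤ (L ≃ₐ[K] L)) p (sUnitsRepr (L := L) S).asModule) :=
    AddCommGroup.zmodModule (tors_killed p)
  let iS : Module (ZMod p)
      (quo (R := MonoidAlgebra ℤ (L ≃ₐ[K] L)) p (permRepr (L := L) S).asModule) :=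
    AddCommGroup.zmodModule (quo_killed p)
  let iI : Module (ZMod p)
      (quo (R := MonoidAlgebra ℤ (L ≃ₐ[K] L)) p (infRepr K L ℤ).asModule) :=
    AddCommGroup.zmodModule (quo_killed p)
  -- finiteness
  have fN : Finite (quo (R := MonoidAlgebra ℤ (L ≃ₐ[K] L)) p N) :=
    Finite.of_equiv _ (quoTrivEquiv (R := MonoidAlgebra ℤ (L ≃ₐ[K] L)) p eN).symm.toEquiv
  have fT : Finite (tors (R := MonoidAlgebra ℤ (L ≃ₐ[K] L)) p (sUnitsRepr (L := L) S).asModule) :=
    Finite.of_equiv _ (torsZetaEquiv (K := K) hp hζ S).symm.toEquiv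
  have fS : Finite (quo (R := MonoidAlgebra ℤ (L ≃ₐ[K] L)) p (permRepr (L := L) S).asModule) :=
    Finite.of_equiv _ (quoPiEquiv p (permRepr (L := L) S)).symm.toEquiv
  have fI : Finite (quo (R := MonoidAlgebra ℤ (L ≃ₐ[K] L)) p (infRepr K L ℤ).asModule) :=
    Finite.of_equiv _ (quoPiEquiv p (infRepr K L ℤ)).symm.toEquiv
  -- the five characteristic polynomials
  have key := charpoly_mul_eq_of_multVal (MonoidAlgebra.of ℤ (L ≃ₐ[K] L) σ)
    (A := quo (R := MonoidAlgebra ℤ (L ≃ₐ[K] L)) p (sUnitsRepr (L := L) S).asModule)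
    (B := quo (R := MonoidAlgebra ℤ (L ≃ₐ[K] L)) p N)
    (C := tors (R := MonoidAlgebra ℤ (L ≃ₐ[K] L)) p (sUnitsRepr (L := L) S).asModule)
    (D := quo (R := MonoidAlgebra ℤ (L ≃ₐ[K] L)) p (permRepr (L := L) S).asModule)
    (E := quo (R := MonoidAlgebra ℤ (L ≃ₐ[K] L)) p (infRepr K L ℤ).asModule)
    (fun f _ hfi => phi_sUnits_count hp.pos S
      (multAddFun.{u} (MonoidAlgebra ℤ (L ≃ₐ[K] L)) (MonoidAlgebra.of ℤ (L ≃ₐ[K] L) σ) p f hfi)
      N eN hN)
  have cN := charpoly_smulEnd_of_equiv_zmod (MonoidAlgebra.of ℤ (L ≃ₐ[K] L) σ)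
    (quoTrivEquiv (R := MonoidAlgebra ℤ (L ≃ₐ[K] L)) p eN) 1
    (fun x => by rw [of_smul_quo_triv p hN, one_mul])
  rw [map_one] at cN
  have cT := charpoly_smulEnd_of_equiv_zmod (MonoidAlgebra.of ℤ (L ≃ₐ[K] L) σ)
    (torsZetaEquiv (K := K) hp hζ S) (m : ZMod p) (torsZetaEquiv_of_smul hp hζ S σ m hσ)
  have cS := charpoly_smulEnd_of_addEquiv (MonoidAlgebra.of ℤ (L ≃ₐ[K] L) σ)
    (quoPiEquiv p (permRepr (L := L) S))
    (LinearMap.funLeft (ZMod p) (ZMod p) (pullAbove (L := L) S σ))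
    (fun x => funext fun w => quoPiEquiv_permRepr p S σ x w)
  have cI := charpoly_smulEnd_of_addEquiv (MonoidAlgebra.of ℤ (L ≃ₐ[K] L) σ)
    (quoPiEquiv p (infRepr K L ℤ))
    (LinearMap.funLeft (ZMod p) (ZMod p) (fun w : InfinitePlace L => σ⁻¹ • w))
    (fun x => funext fun w => quoPiEquiv_infRepr p σ x w)
  rw [cN, cT, cS, cI] at key
  exact key

end Main

end Fermat.Agent.GP.GW.EqSUnits
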